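/-
S23 library, module (Cc-forms): symmetric functions of the `SL₂(ℤ)`-conjugates of a form on
`Γ₀(N)` are level-one modular forms.
-/
import Mathlib
import Fermat.Statements.S23

set_option autoImplicit false

open UpperHalfPlane ModularFormClass CongruenceSubgroup
open scoped MatrixGroups ModularForm Manifold

namespace Fermat.Agent.S23L.Data

/-- A holomorphic `SL₂(ℤ)`-invariant function that is bounded at `i∞` is a level-one form. -/
theorem exists_modularForm_of_invariant (k : ℤ) (F : ℍ → ℂ) (hF : MDiff F)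
    (hb : IsBoundedAtImInfty F) (hinv : ∀ γ ∈ 𝒮ℒ, F ∣[k] γ = F) :
    ∃ h : ModularForm 𝒮ℒ k, ⇑h = F :=
  ⟨{ toFun := F
     slash_action_eq' := hinv
     holo' := hF
     bdd_at_cusps' := fun {c} hc => by
       rw [OnePoint.isBoundedAt_iff_forall_SL2Z hc]
       intro γ _
       have h1 : F ∣[k] γ = F := hinv _ ⟨γ, rfl⟩
       rw [h1]
       exact hb }, rfl⟩

/-- A holomorphic `SL₂(ℤ)`-invariant function that vanishes at `i∞` is a level-one cusp form. -/
theorem exists_cuspForm_of_invariant (k : ℤ) (F : ℍ → ℂ) (hF : MDiff F)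
    (hb : IsZeroAtImInfty F) (hinv : ∀ γ ∈ 𝒮ℒ, F ∣[k] γ = F) :
    ∃ h : CuspForm 𝒮ℒ k, ⇑h = F :=
  ⟨{ toFun := F
     slash_action_eq' := hinv
     holo' := hF
     zero_at_cusps' := fun {c} hc => by
       rw [OnePoint.isZeroAt_iff_forall_SL2Z hc]
       intro γ _
       have h1 : F ∣[k] γ = F := hinv _ ⟨γ, rfl⟩
       rw [h1]
       exact hb }, rfl⟩

section conj

variable {N : ℕ}

/-- `Γ₀(N)` inside `GL(2, ℝ)`. -/
abbrev G0 (N : ℕ) : Subgroup (GL (Fin 2) ℝ) :=
  ((Gamma0 N : Subgroup SL(2, ℤ)) : Subgroup (GL (Fin 2) ℝ))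

/-- The coset space `SL₂(ℤ) / Γ₀(N)`. -/
abbrev Q (N : ℕ) : Type := 𝒮ℒ ⧸ ((G0 N).subgroupOf 𝒮ℒ)

/-- The image of `γ ∈ SL₂(ℤ)` in `𝒮ℒ`. -/
def toSL (γ : SL(2, ℤ)) : 𝒮ℒ := ⟨Matrix.SpecialLinearGroup.mapGL ℝ γ, γ, rfl⟩

/-- The permutation of the cosets induced by `γ⁻¹`. -/
noncomputable def perm (N : ℕ) (γ : SL(2, ℤ)) : Equiv.Perm (Q N) := MulAction.toPerm (toSL γ)⁻¹

variable {F : Type*} [FunLike F ℍ ℂ] {k : ℤ}

/-- The conjugates `g ∣[k] h⁻¹` of `g`, indexed by the cosets `q = ⟦h⟧`. -/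
noncomputable abbrev cj [SlashInvariantFormClass F (G0 N) k] (g : F) (q : Q N) : ℍ → ℂ :=
  SlashInvariantForm.quotientFunc g q

theorem cj_slash [SlashInvariantFormClass F (G0 N) k] (g : F) (q : Q N) (γ : SL(2, ℤ)) :
    cj g q ∣[k] γ = cj g (perm N γ q) :=
  SlashInvariantForm.quotientFunc_smul g (toSL γ).2 q

theorem cj_one [SlashInvariantFormClass F (G0 N) k] (g : F) :
    cj g ((1 : 𝒮ℒ) : Q N) = ⇑g := by
  show (⇑g) ∣[k] ((1 : 𝒮ℒ) : GL (Fin 2) ℝ)⁻¹ = ⇑g
  simp

theorem mdiff_cj [NeZero N] [ModularFormClass F (G0 N) k] (g : F) (q : Q N) : MDiff (cj g q) := by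
  induction q using Quotient.inductionOn with
  | h r => exact (ModularFormClass.holo g).slash k _

theorem bdd_cj [NeZero N] [ModularFormClass F (G0 N) k] (g : F) (q : Q N) :
    IsBoundedAtImInfty (cj g q) := by
  induction q using Quotient.inductionOn with
  | h r =>
    obtain ⟨r, γ, rfl⟩ := r
    have h1 : (Matrix.SpecialLinearGroup.mapGL ℝ γ)⁻¹ = Matrix.SpecialLinearGroup.mapGL ℝ γ⁻¹ :=
      (map_inv _ _).symm
    show IsBoundedAtImInfty (⇑g ∣[k] (Matrix.SpecialLinearGroup.mapGL ℝ γ)⁻¹)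
    rw [h1]
    exact ModularFormClass.bdd_at_infty_slash g γ⁻¹

theorem zero_cj [NeZero N] [CuspFormClass F (G0 N) k] (g : F) (q : Q N) :
    IsZeroAtImInfty (cj g q) := by
  induction q using Quotient.inductionOn with
  | h r =>
    obtain ⟨r, γ, rfl⟩ := r
    have h1 : (Matrix.SpecialLinearGroup.mapGL ℝ γ)⁻¹ = Matrix.SpecialLinearGroup.mapGL ℝ γ⁻¹ :=
      (map_inv _ _).symm
    show IsZeroAtImInfty (⇑g ∣[k] (Matrix.SpecialLinearGroup.mapGL ℝ γ)⁻¹)
    rw [h1]
    exact CuspFormClass.zero_at_infty_slash g γ⁻¹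

/-- The (classical) `Fintype` structure on the finite coset space. -/
@[reducible] noncomputable def fintypeQ (N : ℕ) [NeZero N] : Fintype (Q N) := Fintype.ofFinite _

attribute [local instance] fintypeQ

/-- The `j`-th elementary symmetric function of the conjugates of `g`. -/
noncomputable def esymmFun [NeZero N] [SlashInvariantFormClass F (G0 N) k] (g : F) (j : ℕ) :
    ℍ → ℂ :=
  ∑ T ∈ Finset.powersetCard j (Finset.univ : Finset (Q N)), ∏ q ∈ T, cj g q

theorem esymmFun_slash [NeZero N] [SlashInvariantFormClass F (G0 N) k] (g : F) (j : ℕ)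
    (γ : SL(2, ℤ)) : esymmFun g j ∣[k * (j : ℤ)] γ = esymmFun g j := by
  unfold esymmFun
  show (∑ T ∈ Finset.powersetCard j (Finset.univ : Finset (Q N)), ∏ q ∈ T, cj g q) ∣[k * (j : ℤ)]
    (Matrix.SpecialLinearGroup.mapGL ℝ γ) = _
  rw [SlashAction.sum_slash]
  have key : ∀ T ∈ Finset.powersetCard j (Finset.univ : Finset (Q N)),
      (∏ q ∈ T, cj g q) ∣[k * (j : ℤ)] (Matrix.SpecialLinearGroup.mapGL ℝ γ) =
        ∏ q ∈ T.map (perm N γ).toEmbedding, cj g q := by
    intro T hT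
    have hc : T.card = j := (Finset.mem_powersetCard.mp hT).2
    rw [← hc, ModularForm.prod_slash, Finset.prod_map]
    have hdet : |((Matrix.SpecialLinearGroup.mapGL ℝ γ).det : ℝ)| = 1 := by
      simp
    rw [hdet, one_zpow, one_smul]
    refine Finset.prod_congr rfl fun q _ => ?_
    exact cj_slash g q γ
  rw [Finset.sum_congr rfl key]
  refine Finset.sum_nbij' (fun T => T.map (perm N γ).toEmbedding)
    (fun T => T.map (perm N γ).symm.toEmbedding) ?_ ?_ ?_ ?_ ?_
  · intro T hT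
    simp only [Finset.mem_powersetCard, Finset.subset_univ, true_and] at hT ⊢
    simpa using hT
  · intro T hT
    simp only [Finset.mem_powersetCard, Finset.subset_univ, true_and] at hT ⊢
    simpa using hT
  · intro T _
    ext x
    simp
  · intro T _
    ext x
    simp
  · intro T _
    rfl

theorem mdiff_esymmFun [NeZero N] [ModularFormClass F (G0 N) k] (g : F) (j : ℕ) :
    MDiff (esymmFun g j) := by
  unfold esymmFun
  refine MDifferentiable.sum fun T _ => ?_
  exact MDifferentiable.prod fun q _ => mdiff_cj g q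

theorem bdd_esymmFun [NeZero N] [ModularFormClass F (G0 N) k] (g : F) (j : ℕ) :
    IsBoundedAtImInfty (esymmFun g j) := by
  unfold esymmFun
  refine (boundedAtImInftySubalgebra ℂ).sum_mem fun T _ => ?_
  exact (boundedAtImInftySubalgebra ℂ).prod_mem fun q _ => bdd_cj g q

theorem zero_esymmFun [NeZero N] [CuspFormClass F (G0 N) k] (g : F) (j : ℕ) (hj : 1 ≤ j) :
    IsZeroAtImInfty (esymmFun g j) := by
  unfold esymmFun
  refine (zeroAtImInftySubmodule ℂ).sum_mem fun T hT => ?_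
  have hc : T.card = j := (Finset.mem_powersetCard.mp hT).2
  have hne : T.Nonempty := Finset.card_pos.mp (by omega)
  obtain ⟨q₁, hq₁⟩ := hne
  classical
  rw [← Finset.mul_prod_erase T _ hq₁]
  exact (zero_cj g q₁).mul_boundedAtFilter
    ((boundedAtImInftySubalgebra ℂ).prod_mem fun q _ => bdd_cj g q)

theorem esymmFun_mem_MF [NeZero N] [ModularFormClass F (G0 N) k] (g : F) (j : ℕ) :
    ∃ h : ModularForm 𝒮ℒ (k * (j : ℤ)), ⇑h = esymmFun g j :=
  exists_modularForm_of_invariant _ _ (mdiff_esymmFun g j) (bdd_esymmFun g j) (by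
    rintro _ ⟨γ, rfl⟩
    exact esymmFun_slash g j γ)

theorem esymmFun_mem_CF [NeZero N] [CuspFormClass F (G0 N) k] (g : F) (j : ℕ) (hj : 1 ≤ j) :
    ∃ h : CuspForm 𝒮ℒ (k * (j : ℤ)), ⇑h = esymmFun g j :=
  exists_cuspForm_of_invariant _ _ (mdiff_esymmFun g j) (zero_esymmFun g j hj) (by
    rintro _ ⟨γ, rfl⟩
    exact esymmFun_slash g j γ)

end conj

end Fermat.Agent.S23L.Data
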