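/-
S23 library, module (G): ring endomorphisms of ℂ detect rationality.
-/
import Mathlib

set_option autoImplicit false

namespace Fermat.Agent.S23L

namespace FixedField

open MvPolynomial

/-- Extension of an injective ring hom along an algebraic extension into an algebraically
closed field. -/
theorem exists_lift {R S M : Type*} [CommRing R] [IsDomain R] [Field S] [Field M]
    [IsAlgClosed M] [Algebra R S] [FaithfulSMul R S] [Algebra.IsAlgebraic R S]
    (χ : R →+* M) (hχ : Function.Injective χ) :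
    ∃ σ : S →+* M, ∀ r : R, σ (algebraMap R S r) = χ r := by
  let : Algebra R M := χ.toAlgebra
  have : FaithfulSMul R M := (faithfulSMul_iff_algebraMap_injective R M).mpr hχ
  let f : S →ₐ[R] M := IsAlgClosed.lift
  exact ⟨f.toRingHom, fun r => f.commutes r⟩

/-- Transcendental case. -/
theorem exists_of_transcendental {x : ℂ} (hx : Transcendental ℚ x) :
    ∃ σ : ℂ →+* ℂ, σ x ≠ x := by
  classical
  have hs : AlgebraicIndepOn ℚ id ({x} : Set ℂ) := by
    rw [AlgebraicIndepOn, algebraicIndependent_singleton_iff ⟨x, rfl⟩]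
    exact hx
  obtain ⟨B, hxB, hB⟩ := exists_isTranscendenceBasis_superset hs
  have hxB' : x ∈ B := hxB rfl
  let x0 : B := ⟨x, hxB'⟩
  have := hB.isAlgebraic
  let R' := Algebra.adjoin ℚ (Set.range ((↑) : B → ℂ))
  let e : MvPolynomial B ℚ ≃ₐ[ℚ] R' := hB.1.aevalEquiv
  let c : B → ℚ := fun b => if b = x0 then 1 else 0
  let ψ₀ : MvPolynomial B ℚ →ₐ[ℚ] MvPolynomial B ℚ := aeval (fun b => X b + C (c b))
  let ψ₁ : MvPolynomial B ℚ →ₐ[ℚ] MvPolynomial B ℚ := aeval (fun b => X b - C (c b))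
  have h10 : ψ₁.comp ψ₀ = AlgHom.id ℚ _ := by
    apply MvPolynomial.algHom_ext
    intro b
    simp [ψ₀, ψ₁]
  have hψ₀ : Function.Injective ψ₀ := by
    intro p q hpq
    have := congrArg ψ₁ hpq
    rw [← AlgHom.comp_apply, ← AlgHom.comp_apply, h10] at this
    exact this
  let χ : R' →+* ℂ := (algebraMap R' ℂ).comp
    ((e : MvPolynomial B ℚ →+* R').comp
      ((ψ₀ : MvPolynomial B ℚ →+* MvPolynomial B ℚ).comp (e.symm : R' →+* MvPolynomial B ℚ)))
  have hχ : Function.Injective χ := by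
    refine (FaithfulSMul.algebraMap_injective R' ℂ).comp
      (e.injective.comp (hψ₀.comp e.symm.injective))
  obtain ⟨σ, hσ⟩ := exists_lift (S := ℂ) χ hχ
  refine ⟨σ, ?_⟩
  have he : ∀ p : MvPolynomial B ℚ, ((e p : R') : ℂ) = aeval ((↑) : B → ℂ) p :=
    fun p => hB.1.algebraMap_aevalEquiv p
  have h1 : algebraMap R' ℂ (e (X x0)) = x := by
    change ((e (X x0) : R') : ℂ) = x
    rw [he]; simp [x0]
  have h2 := hσ (e (X x0))
  rw [h1] at h2
  rw [h2]
  have h3 : χ (e (X x0)) = x + 1 := by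
    simp only [χ, RingHom.comp_apply]
    change ((e (ψ₀ (e.symm (e (X x0)))) : R') : ℂ) = x + 1
    rw [he]
    simp [ψ₀, c, x0]
  rw [h3]
  simp

/-- Algebraic case. -/
theorem exists_of_isAlgebraic {x : ℂ} (hx : IsAlgebraic ℚ x)
    (hx' : ∀ r : ℚ, x ≠ (r : ℂ)) :
    ∃ σ : ℂ →+* ℂ, σ x ≠ x := by
  classical
  let L : IntermediateField ℚ ℂ := algebraicClosure ℚ ℂ
  have hxL : x ∈ L := mem_algebraicClosure_iff.mpr hx
  let xL : L := ⟨x, hxL⟩
  have : IsAlgClosure ℚ L := algebraicClosure.isAlgClosure ℚ ℂ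
  have : Algebra.IsSeparable ℚ L := Algebra.IsAlgebraic.isSeparable_of_perfectField
  have : IsGalois ℚ L := ⟨⟩
  have hnot : xL ∉ Set.range (algebraMap ℚ L) := by
    rintro ⟨r, hr⟩
    apply hx' r
    have := congrArg (Subtype.val) hr
    simpa [xL] using this.symm
  rw [InfiniteGalois.mem_range_algebraMap_iff_fixed] at hnot
  push Not at hnot
  obtain ⟨τ, hτ⟩ := hnot
  obtain ⟨B, hB⟩ := exists_isTranscendenceBasis L ℂ
  have := hB.isAlgebraic
  let R' := Algebra.adjoin L (Set.range ((↑) : B → ℂ))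
  let e : MvPolynomial B L ≃ₐ[L] R' := hB.1.aevalEquiv
  let ψ₀ : MvPolynomial B L →+* MvPolynomial B L := MvPolynomial.map (τ : L →+* L)
  have hψ₀ : Function.Injective ψ₀ := MvPolynomial.map_injective _ τ.injective
  let χ : R' →+* ℂ := (algebraMap R' ℂ).comp
    ((e : MvPolynomial B L →+* R').comp
      (ψ₀.comp (e.symm : R' →+* MvPolynomial B L)))
  have hχ : Function.Injective χ := by
    refine (FaithfulSMul.algebraMap_injective R' ℂ).comp
      (e.injective.comp (hψ₀.comp e.symm.injective))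
  obtain ⟨σ, hσ⟩ := exists_lift (S := ℂ) χ hχ
  refine ⟨σ, ?_⟩
  have he : ∀ p : MvPolynomial B L, ((e p : R') : ℂ) = aeval ((↑) : B → ℂ) p :=
    fun p => hB.1.algebraMap_aevalEquiv p
  have h1 : ∀ l : L, algebraMap R' ℂ (e (C l)) = (l : ℂ) := by
    intro l
    change ((e (C l) : R') : ℂ) = l
    rw [he]; simp
  have h2 := hσ (e (C xL))
  rw [h1] at h2
  have h3 : χ (e (C xL)) = (τ xL : ℂ) := by
    simp only [χ, RingHom.comp_apply]
    change ((e (ψ₀ (e.symm (e (C xL)))) : R') : ℂ) = _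
    rw [he]
    simp [ψ₀]
  rw [h3] at h2
  change σ x = _ at h2
  rw [h2]
  intro h
  exact hτ (Subtype.ext h)

end FixedField

/-- (G) Every non-rational complex number is moved by some ring endomorphism of `ℂ`. -/
theorem exists_ringHom_ne {x : ℂ} (hx : ∀ r : ℚ, x ≠ (r : ℂ)) : ∃ σ : ℂ →+* ℂ, σ x ≠ x := by
  by_cases h : IsAlgebraic ℚ x
  · exact FixedField.exists_of_isAlgebraic h hx
  · exact FixedField.exists_of_transcendental h

end Fermat.Agent.S23L
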