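/-
S23 library, module (Cc-poly): pointwise polynomial algebra for `Φ = ∏_q (X - a_q)` over `ℂ`
(Vieta, root, derivative at a root, uniqueness, Lagrange interpolation numerator).
-/
import Mathlib

set_option autoImplicit false

open Polynomial Finset

namespace Fermat.Agent.S23L.Data

variable {ι : Type*} [Fintype ι] [DecidableEq ι]

/-- `Φ = ∏_q (X - a_q)`. -/
noncomputable def phi (a : ι → ℂ) : ℂ[X] := ∏ q, (X - C (a q))

/-- `Φ` is monic. -/
theorem polyA_phi_monic {κ : Type*} [Fintype κ] [DecidableEq κ] (a : κ → ℂ) :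
    (phi a).Monic :=
  monic_prod_X_sub_C a univ

/-- `Φ` has degree the number of points. -/
theorem polyA_phi_natDegree {κ : Type*} [Fintype κ] [DecidableEq κ] (a : κ → ℂ) :
    (phi a).natDegree = Fintype.card κ := by
  unfold phi
  rw [natDegree_finsetProd_X_sub_C_eq_card, Finset.card_univ]

/-- `Φ` as a product over the multiset of values of `a`. -/
theorem polyA_phi_eq_multiset_prod {κ : Type*} [Fintype κ] [DecidableEq κ] (a : κ → ℂ) :
    phi a = ((univ.val.map a).map fun t => X - C t).prod := by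
  unfold phi
  rw [Multiset.map_map]
  rfl

/-- Splitting off the linear factor at `q₀`. -/
theorem polyA_phi_eq_mul_erase (a : ι → ℂ) (q₀ : ι) :
    phi a = (X - C (a q₀)) * ∏ q ∈ univ.erase q₀, (X - C (a q)) := by
  unfold phi
  rw [Finset.mul_prod_erase univ (fun q => X - C (a q)) (mem_univ q₀)]

/-- `a q₀` is a root of `Φ`. -/
theorem polyA_phi_eval_self (a : ι → ℂ) (q₀ : ι) : eval (a q₀) (phi a) = 0 := by
  rw [polyA_phi_eq_mul_erase a q₀, eval_mul, eval_sub, eval_X, eval_C, sub_self, zero_mul]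

/-- The derivative of `Φ` at the root `a q₀`. -/
theorem polyA_phi_eval_derivative (a : ι → ℂ) (q₀ : ι) :
    eval (a q₀) (derivative (phi a)) = ∏ q ∈ univ.erase q₀, (a q₀ - a q) := by
  rw [polyA_phi_eq_mul_erase a q₀, derivative_mul, eval_add, eval_mul, eval_mul, eval_sub,
    eval_X, eval_C, sub_self, zero_mul, add_zero, derivative_sub, derivative_X, derivative_C,
    sub_zero, eval_one, one_mul, eval_prod]
  refine Finset.prod_congr rfl fun q _ => ?_
  rw [eval_sub, eval_X, eval_C]

theorem phi_coeff_card (a : ι → ℂ) {m : ℕ} (hM : Fintype.card ι = m + 1) :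
    (phi a).coeff (m + 1) = 1 := by
  have h := (polyA_phi_monic a).coeff_natDegree
  rwa [polyA_phi_natDegree, hM] at h

theorem phi_coeff_eq_esymm (a : ι → ℂ) {m i : ℕ} (hM : Fintype.card ι = m + 1)
    (hi : i ≤ m + 1) :
    (phi a).coeff i =
      (-1) ^ (m + 1 - i) * ∑ T ∈ powersetCard (m + 1 - i) univ, ∏ q ∈ T, a q := by
  have hcard : Multiset.card ((univ : Finset ι).val.map a) = m + 1 := by
    rw [Multiset.card_map, ← hM]
    exact Finset.card_univ
  have hi' : i ≤ Multiset.card ((univ : Finset ι).val.map a) := by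
    rw [hcard]
    exact hi
  rw [polyA_phi_eq_multiset_prod, Multiset.prod_X_sub_C_coeff _ hi', hcard,
    Finset.esymm_map_val]

theorem phi_root (a : ι → ℂ) {m : ℕ} (hM : Fintype.card ι = m + 1) (q₀ : ι) :
    ∑ i ∈ range (m + 2), (phi a).coeff i * a q₀ ^ i = 0 := by
  have h := eval_eq_sum_range (p := phi a) (a q₀)
  rw [polyA_phi_natDegree, hM] at h
  rw [← h]
  exact polyA_phi_eval_self a q₀

theorem phi_deriv (a : ι → ℂ) {m : ℕ} (hM : Fintype.card ι = m + 1) (q₀ : ι) :
    ∑ i ∈ range (m + 1), ((i + 1 : ℕ) : ℂ) • ((phi a).coeff (i + 1) * a q₀ ^ i) =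
      ∏ q ∈ univ.erase q₀, (a q₀ - a q) := by
  have hpos : 0 < (phi a).natDegree := by
    rw [polyA_phi_natDegree, hM]
    exact Nat.succ_pos m
  have hdeg : (derivative (phi a)).natDegree < m + 1 := by
    have h0 := natDegree_derivative_lt (p := phi a) (Nat.pos_iff_ne_zero.mp hpos)
    rw [polyA_phi_natDegree, hM] at h0
    exact h0
  rw [← polyA_phi_eval_derivative a q₀, eval_eq_sum_range' hdeg (a q₀)]
  refine Finset.sum_congr rfl fun i _ => ?_
  rw [coeff_derivative, smul_eq_mul]
  push_cast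
  ring

end Fermat.Agent.S23L.Data
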