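/-
S23 library, module (Cc-poly2): uniqueness of the monic polynomial with prescribed distinct roots,
Lagrange interpolation numerator, and the monic equation of `b q₀`.
-/
import Mathlib
import Fermat.Agent.S23.DataPoly

set_option autoImplicit false

open Polynomial Finset

namespace Fermat.Agent.S23L.Data

variable {ι : Type*} [Fintype ι] [DecidableEq ι]

theorem polyB_phi_monic {κ : Type*} [Fintype κ] (a : κ → ℂ) : (phi a).Monic := by
  unfold phi
  exact monic_prod_X_sub_C a univ

theorem polyB_phi_natDegree {κ : Type*} [Fintype κ] (a : κ → ℂ) {m : ℕ}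
    (hM : Fintype.card κ = m + 1) : (phi a).natDegree = m + 1 := by
  unfold phi
  rw [natDegree_finsetProd_X_sub_C_eq_card, Finset.card_univ, hM]

theorem polyB_phi_coeff_top {κ : Type*} [Fintype κ] (a : κ → ℂ) {m : ℕ}
    (hM : Fintype.card κ = m + 1) : (phi a).coeff (m + 1) = 1 := by
  have h := (polyB_phi_monic a).coeff_natDegree
  rwa [polyB_phi_natDegree a hM] at h

theorem polyB_phi_factor (a : ι → ℂ) (q : ι) :
    phi a = (X - C (a q)) * ∏ q' ∈ univ.erase q, (X - C (a q')) := by
  unfold phi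
  exact (Finset.mul_prod_erase univ (fun q' => (X - C (a q') : ℂ[X])) (Finset.mem_univ q)).symm

theorem polyB_phi_eval_root (a : ι → ℂ) (q₀ : ι) : (phi a).eval (a q₀) = 0 := by
  rw [polyB_phi_factor a q₀, eval_mul, eval_sub, eval_X, eval_C, sub_self, zero_mul]

theorem phi_unique (a : ι → ℂ) {m : ℕ} (hM : Fintype.card ι = m + 1)
    (ha : Function.Injective a) (c' : ℕ → ℂ) (h1 : c' (m + 1) = 1)
    (h : ∀ q, ∑ i ∈ range (m + 2), c' i * a q ^ i = 0) :
    ∀ i ≤ m + 1, c' i = (phi a).coeff i := by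
  obtain ⟨P, hP⟩ : ∃ P : ℂ[X], P = ∑ i ∈ range (m + 2), C (c' i) * X ^ i := ⟨_, rfl⟩
  have hPcoeff : ∀ i, i ≤ m + 1 → P.coeff i = c' i := by
    intro i hi
    rw [hP, finsetSum_coeff]
    simp only [coeff_C_mul_X_pow]
    rw [Finset.sum_eq_single i]
    · simp
    · intro j _ hji
      rw [if_neg (Ne.symm hji)]
    · intro hi'
      exact absurd (Finset.mem_range.mpr (by omega)) hi'
  have hPdeg : P.natDegree ≤ m + 1 := by
    rw [hP]
    apply natDegree_sum_le_of_forall_le
    intro i hi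
    have hi' := Finset.mem_range.mp hi
    exact (natDegree_C_mul_X_pow_le _ _).trans (by omega)
  have hPeval : ∀ q, P.eval (a q) = 0 := by
    intro q
    rw [hP, eval_finsetSum]
    simpa using h q
  have hD : P - phi a = 0 := by
    apply eq_zero_of_natDegree_lt_card_of_eval_eq_zero (P - phi a) ha
    · intro q
      rw [eval_sub, hPeval q, polyB_phi_eval_root, sub_zero]
    · rw [hM]
      have hle : (P - phi a).natDegree ≤ m := by
        rw [natDegree_le_iff_coeff_eq_zero]
        intro N hN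
        rw [coeff_sub]
        rcases Nat.lt_or_ge (m + 1) N with hN' | hN'
        · rw [coeff_eq_zero_of_natDegree_lt (lt_of_le_of_lt hPdeg hN'),
            coeff_eq_zero_of_natDegree_lt (by rw [polyB_phi_natDegree a hM]; exact hN'), sub_zero]
        · have hNeq : N = m + 1 := by omega
          rw [hNeq, hPcoeff (m + 1) le_rfl, h1, polyB_phi_coeff_top a hM, sub_self]
      omega
  intro i hi
  rw [← hPcoeff i hi, sub_eq_zero.mp hD]

theorem polyB_erase_eq_div (a : ι → ℂ) (q : ι) :
    (∏ q' ∈ univ.erase q, (X - C (a q')) : ℂ[X]) = phi a /ₘ (X - C (a q)) := by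
  rw [polyB_phi_factor a q, mul_divByMonic_cancel_left _ (monic_X_sub_C (a q))]

theorem polyB_erase_coeff (a : ι → ℂ) {m : ℕ} (hM : Fintype.card ι = m + 1) (q : ι) (n : ℕ) :
    (∏ q' ∈ univ.erase q, (X - C (a q')) : ℂ[X]).coeff n =
      ∑ i ∈ Icc (n + 1) (m + 1), a q ^ (i - (n + 1)) * (phi a).coeff i := by
  rw [polyB_erase_eq_div, coeff_divByMonic_X_sub_C, polyB_phi_natDegree a hM]

theorem polyB_erase_natDegree (a : ι → ℂ) {m : ℕ} (hM : Fintype.card ι = m + 1) (q : ι) :
    (∏ q' ∈ univ.erase q, (X - C (a q')) : ℂ[X]).natDegree = m := by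
  rw [natDegree_finsetProd_X_sub_C_eq_card, Finset.card_erase_of_mem (Finset.mem_univ q),
    Finset.card_univ, hM, Nat.add_sub_cancel]

theorem phi_lagrange (a b : ι → ℂ) {m : ℕ} (hM : Fintype.card ι = m + 1) (q₀ : ι) :
    b q₀ * ∏ q ∈ univ.erase q₀, (a q₀ - a q) =
      ∑ n ∈ range (m + 1),
        (∑ i ∈ Icc (n + 1) (m + 1), (phi a).coeff i * ∑ q, b q * a q ^ (i - n - 1)) *
          a q₀ ^ n := by
  obtain ⟨G, hG⟩ : ∃ G : ℂ[X], G = ∑ q, C (b q) * ∏ q' ∈ univ.erase q, (X - C (a q')) :=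
    ⟨_, rfl⟩
  have hGdeg : G.natDegree < m + 1 := by
    have hle : G.natDegree ≤ m := by
      rw [hG]
      apply natDegree_sum_le_of_forall_le
      intro q _
      exact (natDegree_C_mul_le _ _).trans (polyB_erase_natDegree a hM q).le
    omega
  have hGcoeff : ∀ n, G.coeff n =
      ∑ i ∈ Icc (n + 1) (m + 1), (phi a).coeff i * ∑ q, b q * a q ^ (i - n - 1) := by
    intro n
    rw [hG, finsetSum_coeff]
    simp only [coeff_C_mul, polyB_erase_coeff a hM, Finset.mul_sum]
    rw [Finset.sum_comm]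
    refine Finset.sum_congr rfl fun i _ => Finset.sum_congr rfl fun q _ => ?_
    rw [Nat.sub_sub]
    ring
  have hGeval : G.eval (a q₀) = b q₀ * ∏ q ∈ univ.erase q₀, (a q₀ - a q) := by
    rw [hG, eval_finsetSum]
    rw [Finset.sum_eq_single q₀]
    · rw [eval_mul, eval_C, eval_prod]
      simp only [eval_sub, eval_X, eval_C]
    · intro q _ hq
      rw [eval_mul, eval_prod]
      have hmem : q₀ ∈ univ.erase q := Finset.mem_erase.mpr ⟨Ne.symm hq, Finset.mem_univ q₀⟩
      rw [Finset.prod_eq_zero hmem (by simp), mul_zero]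
    · intro hq
      exact absurd (Finset.mem_univ q₀) hq
  rw [← hGeval, eval_eq_sum_range' hGdeg]
  exact Finset.sum_congr rfl fun n _ => by rw [hGcoeff n]

theorem phi_monic_root (b : ι → ℂ) {m : ℕ} (hM : Fintype.card ι = m + 1) (q₀ : ι) :
    b q₀ ^ (m + 1) + ∑ i ∈ range (m + 1), (phi b).coeff (m - i) * b q₀ ^ (m - i) = 0 := by
  have h0 := polyB_phi_eval_root b q₀
  have hdeg : (phi b).natDegree < m + 2 := by
    rw [polyB_phi_natDegree b hM]
    omega
  rw [eval_eq_sum_range' hdeg, Finset.sum_range_succ, polyB_phi_coeff_top b hM, one_mul] at h0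
  have hrefl := Finset.sum_range_reflect (fun j => (phi b).coeff j * b q₀ ^ j) (m + 1)
  simp only [Nat.add_sub_cancel] at hrefl
  rw [hrefl, add_comm]
  exact h0

end Fermat.Agent.S23L.Data
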