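/-
S23 library, auxiliary module for (C) (owner helper5): calculus of weight-`k` slash invariance
under `Γ₀(N)` for plain functions `ℍ → ℂ`, and construction of a cusp form from a function.
All names live in `Fermat.Agent.S23L.Twist`.
-/
import Mathlib
import Fermat.Statements.S23

set_option autoImplicit false

open UpperHalfPlane ModularFormClass CongruenceSubgroup
open scoped MatrixGroups ModularForm Manifold

namespace Fermat.Agent.S23L.Twist

/-- Weight-`k` slash invariance under (the image in `SL(2,ℤ)` of) `Γ₀(N)`. -/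
def SlashInv (N : ℕ) (k : ℤ) (F : ℍ → ℂ) : Prop :=
  ∀ γ : SL(2, ℤ), γ ∈ Gamma0 N → F ∣[k] γ = F

variable {N : ℕ} {k k₁ k₂ : ℤ} {F G : ℍ → ℂ}

/-- Level-one modular forms are invariant under all of `SL(2,ℤ)`. -/
theorem slash_levelOne {k : ℤ} (h : ModularForm 𝒮ℒ k) (γ : SL(2, ℤ)) : (⇑h) ∣[k] γ = ⇑h := by
  rw [ModularForm.SL_slash]
  exact SlashInvariantFormClass.slash_action_eq h (Matrix.SpecialLinearGroup.mapGL ℝ γ) ⟨γ, rfl⟩

theorem slash_cusp_levelOne {k : ℤ} (h : CuspForm 𝒮ℒ k) (γ : SL(2, ℤ)) : (⇑h) ∣[k] γ = ⇑h := by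
  rw [ModularForm.SL_slash]
  exact SlashInvariantFormClass.slash_action_eq h (Matrix.SpecialLinearGroup.mapGL ℝ γ) ⟨γ, rfl⟩

theorem slash_Gamma0 {N : ℕ} {k : ℤ} (h : ModularForm (Gamma0 N) k) (γ : SL(2, ℤ))
    (hγ : γ ∈ Gamma0 N) : (⇑h) ∣[k] γ = ⇑h := by
  rw [ModularForm.SL_slash]
  exact SlashInvariantFormClass.slash_action_eq h (Matrix.SpecialLinearGroup.mapGL ℝ γ)
    ⟨γ, hγ, rfl⟩

theorem slash_cusp_Gamma0 {N : ℕ} {k : ℤ} (h : CuspForm (Gamma0 N) k) (γ : SL(2, ℤ))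
    (hγ : γ ∈ Gamma0 N) : (⇑h) ∣[k] γ = ⇑h := by
  rw [ModularForm.SL_slash]
  exact SlashInvariantFormClass.slash_action_eq h (Matrix.SpecialLinearGroup.mapGL ℝ γ)
    ⟨γ, hγ, rfl⟩

/-- Slash by `SL(2,ℤ)` is multiplicative for powers. -/
theorem pow_slash_SL2 (k : ℤ) (n : ℕ) (γ : SL(2, ℤ)) (F : ℍ → ℂ) :
    (F ^ n) ∣[k * (n : ℤ)] γ = (F ∣[k] γ) ^ n := by
  induction n with
  | zero =>
    have h0 : k * ((0 : ℕ) : ℤ) = 0 := by simp
    rw [h0, pow_zero, pow_zero]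
    exact ModularForm.is_invariant_one γ
  | succ n ih =>
    have hk : k * ((n + 1 : ℕ) : ℤ) = k * (n : ℤ) + k := by push_cast; ring
    rw [hk, pow_succ, ModularForm.mul_slash_SL2, ih, pow_succ]

theorem SlashInv.of_levelOne (N : ℕ) {k : ℤ} (h : ModularForm 𝒮ℒ k) : SlashInv N k (⇑h) :=
  fun γ _ => slash_levelOne h γ

theorem SlashInv.of_Gamma0 {N : ℕ} {k : ℤ} (h : ModularForm (Gamma0 N) k) : SlashInv N k (⇑h) :=
  fun γ hγ => slash_Gamma0 h γ hγ

theorem SlashInv.congr (h : SlashInv N k F) {k' : ℤ} (hk : k = k') : SlashInv N k' F :=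
  hk ▸ h

theorem SlashInv.add (hF : SlashInv N k F) (hG : SlashInv N k G) : SlashInv N k (F + G) := by
  intro γ hγ
  rw [SlashAction.add_slash, hF γ hγ, hG γ hγ]

theorem SlashInv.smul (a : ℂ) (hF : SlashInv N k F) : SlashInv N k (a • F) := by
  intro γ hγ
  rw [ModularForm.SL_smul_slash, hF γ hγ]

theorem SlashInv.sum {ι : Type*} (s : Finset ι) {H : ι → ℍ → ℂ} (h : ∀ i ∈ s, SlashInv N k (H i)) :
    SlashInv N k (∑ i ∈ s, H i) := by
  intro γ hγ
  rw [SlashAction.sum_slash]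
  exact Finset.sum_congr rfl fun i hi => h i hi γ hγ

theorem SlashInv.mul (hF : SlashInv N k₁ F) (hG : SlashInv N k₂ G) :
    SlashInv N (k₁ + k₂) (F * G) := by
  intro γ hγ
  rw [ModularForm.mul_slash_SL2, hF γ hγ, hG γ hγ]

theorem SlashInv.pow (hF : SlashInv N k F) (n : ℕ) : SlashInv N (k * (n : ℤ)) (F ^ n) := by
  intro γ hγ
  rw [pow_slash_SL2, hF γ hγ]

/-- A holomorphic function, weight-`k` invariant under `Γ₀(N)`, all of whose `SL(2,ℤ)`-translates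
vanish at `i∞`, is a cusp form. -/
theorem exists_cuspForm_of_slashInv (N : ℕ) [NeZero N] (k : ℤ) (g : ℍ → ℂ) (hol : MDiff g)
    (hinv : SlashInv N k g) (hcusp : ∀ γ : SL(2, ℤ), IsZeroAtImInfty (g ∣[k] γ)) :
    ∃ G : CuspForm (Gamma0 N) k, ⇑G = g := by
  refine ⟨{ toFun := g
            slash_action_eq' := ?_
            holo' := hol
            zero_at_cusps' := ?_ }, rfl⟩
  · rintro γ' ⟨γ, hγ, rfl⟩
    exact hinv γ hγ
  · intro c hc
    rw [Subgroup.IsArithmetic.isCusp_iff_isCusp_SL2Z] at hc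
    rw [OnePoint.isZeroAt_iff_forall_SL2Z hc]
    intro γ _
    exact hcusp γ

end Fermat.Agent.S23L.Twist
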