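/-
S23 library, module (Cc-rigid): the conjugates of θ are pairwise distinct, `Φ'(θ) ≠ 0`, and the
rigidity of the modular equation of θ.
-/
import Mathlib
import Fermat.Statements.S23
import Fermat.Agent.S23.DataPoly2
import Fermat.Agent.S23.DataForms
import Fermat.Agent.S23.SlashCalc

set_option autoImplicit false

open UpperHalfPlane ModularFormClass CongruenceSubgroup
open scoped MatrixGroups ModularForm Manifold

namespace Fermat.Agent.S23L.Data

attribute [local instance] fintypeQ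

variable {N : ℕ} [NeZero N]

omit [NeZero N] in
/-- Every coset is the `perm`-translate of the trivial coset; hence every conjugate of `g` is an
`SL(2,ℤ)`-slash of `g`. -/
theorem exists_cj_eq_slash {F : Type*} [FunLike F ℍ ℂ] {k : ℤ}
    [SlashInvariantFormClass F (G0 N) k] (g : F) (q : Q N) :
    ∃ γ : SL(2, ℤ), cj g q = (⇑g) ∣[k] γ := by
  induction q using Quotient.inductionOn with
  | h r =>
    obtain ⟨r, δ, rfl⟩ := r
    refine ⟨δ⁻¹, ?_⟩
    rw [ModularForm.SL_slash]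
    show (⇑g) ∣[k] (Matrix.SpecialLinearGroup.mapGL ℝ δ)⁻¹ = _
    rw [← map_inv]
    rfl

/-- The conjugates of `θ` are pairwise distinct functions. -/
theorem cj_injective (θ : ModularForm (Gamma0 N) 4)
    (hθ : ∀ γ : SL(2, ℤ), (⇑θ) ∣[(4 : ℤ)] γ = ⇑θ → γ ∈ Gamma0 N) :
    Function.Injective (fun q : Q N => cj θ q) := by
  intro q q' hqq
  induction q using Quotient.inductionOn with
  | h r =>
    induction q' using Quotient.inductionOn with
    | h r' =>
      have h1 : (⇑θ) ∣[(4 : ℤ)] (r.val⁻¹) = (⇑θ) ∣[(4 : ℤ)] (r'.val⁻¹) := hqq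
      have h2 : (⇑θ) ∣[(4 : ℤ)] (r.val⁻¹ * r'.val) = ⇑θ := by
        rw [SlashAction.slash_mul, h1, ← SlashAction.slash_mul, inv_mul_cancel,
          SlashAction.slash_one]
      obtain ⟨γ, hγ⟩ : ∃ γ : SL(2, ℤ), Matrix.SpecialLinearGroup.mapGL ℝ γ = r.val⁻¹ * r'.val :=
        (r⁻¹ * r').2
      have h3 : (⇑θ) ∣[(4 : ℤ)] γ = ⇑θ := by
        rw [ModularForm.SL_slash]
        have : (⇑θ) ∣[(4 : ℤ)] (Matrix.SpecialLinearGroup.mapGL ℝ γ) = ⇑θ := by rw [hγ, h2]
        exact this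
      have h4 := hθ γ h3
      exact Quotient.sound (QuotientGroup.leftRel_apply.mpr
        (Subgroup.mem_subgroupOf.mpr ⟨γ, h4, hγ⟩))

open scoped Classical in
/-- `Φ'(θ) = ∏_{q ≠ q₀} (θ - θ_q)` is not the zero function. -/
theorem prod_sub_cj_ne_zero (θ : ModularForm (Gamma0 N) 4)
    (hθ : ∀ γ : SL(2, ℤ), (⇑θ) ∣[(4 : ℤ)] γ = ⇑θ → γ ∈ Gamma0 N) :
    (∏ q ∈ (Finset.univ : Finset (Q N)).erase ((1 : 𝒮ℒ) : Q N), (⇑θ - cj θ q)) ≠ 0 := by
  intro h
  rw [UpperHalfPlane.prod_eq_zero_iff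
    (fun q _ => (ModularFormClass.holo θ).sub (mdiff_cj θ q))] at h
  obtain ⟨q, hq, hq0⟩ := h
  have h1 : cj θ q = cj θ ((1 : 𝒮ℒ) : Q N) := by
    rw [cj_one]; exact (sub_eq_zero.mp hq0).symm
  exact (Finset.mem_erase.mp hq).1 (cj_injective θ hθ h1)

open scoped Classical in
/-- Rigidity: a monic polynomial of degree `m + 1 = |Q|` with level-one coefficients of the right
weights that kills `θ` has, pointwise, the coefficients of `∏_q (X - θ_q)`. -/
theorem rigidity (θ : ModularForm (Gamma0 N) 4)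
    (hθ : ∀ γ : SL(2, ℤ), (⇑θ) ∣[(4 : ℤ)] γ = ⇑θ → γ ∈ Gamma0 N)
    {m : ℕ} (hM : Fintype.card (Q N) = m + 1) (c' : ℕ → ℍ → ℂ)
    (hc' : ∀ i ≤ m + 1, ∃ h : ModularForm 𝒮ℒ (4 * ((m + 1 - i : ℕ) : ℤ)), ⇑h = c' i)
    (h1 : c' (m + 1) = 1) (h0 : ∑ i ∈ Finset.range (m + 2), c' i * (⇑θ) ^ i = 0) :
    ∀ i ≤ m + 1, ∀ z : ℍ, c' i z = (phi (fun q : Q N => cj θ q z)).coeff i := by
  -- Step 1: every conjugate of θ is a root, pointwise.
  have hroot : ∀ (q : Q N) (z : ℍ),
      ∑ i ∈ Finset.range (m + 2), c' i z * (cj θ q z) ^ i = 0 := by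
    intro q z
    obtain ⟨γ, hγ⟩ := exists_cj_eq_slash θ q
    have h2 : (∑ i ∈ Finset.range (m + 2), c' i * (⇑θ) ^ i) ∣[(4 : ℤ) * ((m + 1 : ℕ) : ℤ)] γ = 0 := by
      rw [h0]; exact SlashAction.zero_slash _ _
    have h3 : (∑ i ∈ Finset.range (m + 2), c' i * (⇑θ) ^ i) ∣[(4 : ℤ) * ((m + 1 : ℕ) : ℤ)] γ
        = ∑ i ∈ Finset.range (m + 2), c' i * (cj θ q) ^ i := by
      have h4 : (∑ i ∈ Finset.range (m + 2), c' i * (⇑θ) ^ i) ∣[(4 : ℤ) * ((m + 1 : ℕ) : ℤ)] γ
          = ∑ i ∈ Finset.range (m + 2), (c' i * (⇑θ) ^ i) ∣[(4 : ℤ) * ((m + 1 : ℕ) : ℤ)] γ := by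
        induction Finset.range (m + 2) using Finset.induction_on with
        | empty => simp [SlashAction.zero_slash]
        | insert a t ha ih =>
          rw [Finset.sum_insert ha, Finset.sum_insert ha, SlashAction.add_slash, ih]
      rw [h4]
      refine Finset.sum_congr rfl fun i hi => ?_
      have hi' : i ≤ m + 1 := by have := Finset.mem_range.mp hi; omega
      obtain ⟨h, hh⟩ := hc' i hi'
      have hw : (4 : ℤ) * ((m + 1 : ℕ) : ℤ) = 4 * ((m + 1 - i : ℕ) : ℤ) + 4 * (i : ℤ) := by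
        omega
      rw [hw, ModularForm.mul_slash_SL2, Twist.pow_slash_SL2, ← hh, Twist.slash_levelOne, hγ]
    rw [h3] at h2
    have h5 := congrFun h2 z
    simpa [Finset.sum_apply] using h5
  -- Step 2: the discriminant-like product.
  set D : ℍ → ℂ := ∏ p ∈ (Finset.univ : Finset (Q N × Q N)).filter (fun p => p.1 ≠ p.2),
      (cj θ p.1 - cj θ p.2) with hD
  have hD_hol : MDiff D :=
    .prod fun p _ => (mdiff_cj θ p.1).sub (mdiff_cj θ p.2)
  have hD0 : D ≠ 0 := by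
    intro h
    rw [hD, UpperHalfPlane.prod_eq_zero_iff
      (fun p _ => (mdiff_cj θ p.1).sub (mdiff_cj θ p.2))] at h
    obtain ⟨p, hp, hp0⟩ := h
    exact (Finset.mem_filter.mp hp).2 (cj_injective θ hθ (sub_eq_zero.mp hp0))
  have hinj : ∀ z : ℍ, D z ≠ 0 → Function.Injective (fun q : Q N => cj θ q z) := by
    intro z hz q q' hqq
    by_contra hne
    apply hz
    rw [hD, Finset.prod_apply]
    refine Finset.prod_eq_zero (i := (q, q')) (Finset.mem_filter.mpr ⟨Finset.mem_univ _, hne⟩) ?_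
    simpa [sub_eq_zero] using hqq
  intro i hi
  -- Step 3: `(c' i - coeff) * D = 0`.
  set E : ℍ → ℂ := fun z => c' i z - (phi (fun q : Q N => cj θ q z)).coeff i with hE
  have hE_hol : MDiff E := by
    obtain ⟨h, hh⟩ := hc' i hi
    have h2 : E = c' i - (fun _ : ℍ => ((-1 : ℂ)) ^ (m + 1 - i)) *
        ∑ T ∈ Finset.powersetCard (m + 1 - i) (Finset.univ : Finset (Q N)), ∏ q ∈ T, cj θ q := by
      funext z
      simp only [hE, Pi.sub_apply, Pi.mul_apply, Finset.sum_apply, Finset.prod_apply]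
      rw [phi_coeff_eq_esymm _ hM hi]
    rw [h2, ← hh]
    exact (ModularFormClass.holo h).sub
      (mdifferentiable_const.mul (.sum fun T _ => .prod fun q _ => mdiff_cj θ q))
  have hED : E * D = 0 := by
    funext z
    by_cases hz : D z = 0
    · simp [hz]
    · have h2 := phi_unique (fun q : Q N => cj θ q z) hM (hinj z hz) (fun i => c' i z)
        (by rw [h1]; rfl) (fun q => hroot q z) i hi
      simp [hE, h2]
  rcases (UpperHalfPlane.mul_eq_zero_iff hE_hol hD_hol).mp hED with h | h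
  · intro z
    have := congrFun h z
    simpa [hE, sub_eq_zero] using this
  · exact absurd h hD0

end Fermat.Agent.S23L.Data
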