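/-
S23 library, module (Cc-trace): the twisted traces `∑_q f_q θ_q^l` are level-one modular forms.
-/
import Mathlib
import Fermat.Statements.S23
import Fermat.Agent.S23.SlashCalc
import Fermat.Agent.S23.DataForms

set_option autoImplicit false

open UpperHalfPlane ModularFormClass CongruenceSubgroup
open scoped MatrixGroups ModularForm Manifold

namespace Fermat.Agent.S23L.Data

attribute [local instance] fintypeQ

variable {N : ℕ}

theorem traceFun_mem_MF' [NeZero N] (f : CuspForm (Gamma0 N) 2) (θ : ModularForm (Gamma0 N) 4)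
    (l : ℕ) :
    ∃ h : ModularForm 𝒮ℒ (2 + 4 * (l : ℤ)), ⇑h = ∑ q : Q N, cj f q * cj θ q ^ l := by
  refine exists_modularForm_of_invariant _ _ ?_ ?_ ?_
  · refine MDifferentiable.sum fun q _ => ?_
    exact (mdiff_cj f q).mul ((mdiff_cj θ q).pow l)
  · refine (boundedAtImInftySubalgebra ℂ).sum_mem fun q _ => ?_
    exact (boundedAtImInftySubalgebra ℂ).mul_mem (bdd_cj f q)
      ((boundedAtImInftySubalgebra ℂ).pow_mem (bdd_cj θ q) l)
  · rintro _ ⟨γ, rfl⟩
    show (∑ q : Q N, cj f q * cj θ q ^ l) ∣[2 + 4 * (l : ℤ)] γ = _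
    rw [ModularForm.SL_slash, SlashAction.sum_slash]
    have key : ∀ q : Q N, (cj f q * cj θ q ^ l) ∣[2 + 4 * (l : ℤ)]
        (Matrix.SpecialLinearGroup.mapGL ℝ γ) = cj f (perm N γ q) * cj θ (perm N γ q) ^ l := by
      intro q
      have h1 := ModularForm.mul_slash_SL2 2 (4 * (l : ℤ)) γ (cj f q) (cj θ q ^ l)
      rw [Twist.pow_slash_SL2, cj_slash, cj_slash] at h1
      exact h1
    show ∑ q : Q N, (cj f q * cj θ q ^ l) ∣[2 + 4 * (l : ℤ)]
        (Matrix.SpecialLinearGroup.mapGL ℝ γ) = _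
    rw [Finset.sum_congr rfl fun q _ => key q]
    exact Equiv.sum_comp (perm N γ) fun q => cj f q * cj θ q ^ l

end Fermat.Agent.S23L.Data
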