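/-
S23 library, module (Cc): the "modular equation" data attached to θ and to a cusp form f.
With 𝒬 = SL₂(ℤ)/Γ₀(N), M = m+1 = |𝒬|, conjugates θ_q = θ∣[4]h⁻¹, f_q = f∣[2]h⁻¹ (q = ⟦h⟧):
  * `c i` (i ≤ m+1) = coefficient of Y^i in Φ(Y) = ∏_q (Y - θ_q): level-one form of weight 4(m+1-i);
  * Φ(θ) = 0, Φ monic, Φ'(θ) = ∏_{q ≠ 1}(θ - θ_q) ≠ 0;
  * rigidity: Φ is the only monic polynomial of degree m+1 with level-one coefficients of the
    right weights killing θ;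
  * `t l` = ∑_q f_q θ_q^l (trace of f θ^l): level one of weight 2 + 4l, and
    f·Φ'(θ) = ∑_n (∑_{i=n+1}^{m+1} c i · t (i-n-1)) θ^n   (= ∑_q f_q · (Φ/(Y-θ_q))(θ));
  * `s i` (i ≤ m) = coefficient of X^(m-i) in ∏_q (X - f_q): level-one cusp form of weight 2(i+1),
    and f^(m+1) + ∑_{i ≤ m} s i f^(m-i) = 0.
-/
import Mathlib
import Fermat.Statements.S23
import Fermat.Agent.S23.DataPoly
import Fermat.Agent.S23.DataPoly2
import Fermat.Agent.S23.DataForms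
import Fermat.Agent.S23.DataTrace
import Fermat.Agent.S23.DataRigid

set_option autoImplicit false

open UpperHalfPlane ModularFormClass CongruenceSubgroup
open scoped MatrixGroups ModularForm Manifold

namespace Fermat.Agent.S23L

open Data

attribute [local instance] Data.fintypeQ

/-- (Cc) -/
theorem exists_data (N : ℕ) [NeZero N] (θ : ModularForm (Gamma0 N) 4)
    (hθ : ∀ γ : SL(2, ℤ), (⇑θ) ∣[(4 : ℤ)] γ = ⇑θ → γ ∈ Gamma0 N) :
    ∃ (m : ℕ) (c : ℕ → ℍ → ℂ),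
      (∀ i ≤ m + 1, ∃ h : ModularForm 𝒮ℒ (4 * ((m + 1 - i : ℕ) : ℤ)), ⇑h = c i) ∧
      c (m + 1) = 1 ∧
      (∑ i ∈ Finset.range (m + 2), c i * (⇑θ) ^ i = 0) ∧
      (∑ i ∈ Finset.range (m + 1), ((i + 1 : ℕ) : ℂ) • (c (i + 1) * (⇑θ) ^ i) ≠ 0) ∧
      (∀ c' : ℕ → ℍ → ℂ,
          (∀ i ≤ m + 1, ∃ h : ModularForm 𝒮ℒ (4 * ((m + 1 - i : ℕ) : ℤ)), ⇑h = c' i) →
          c' (m + 1) = 1 → (∑ i ∈ Finset.range (m + 2), c' i * (⇑θ) ^ i = 0) →
          ∀ i ≤ m + 1, c' i = c i) ∧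
      (∀ f : CuspForm (Gamma0 N) 2,
        (∃ t : ℕ → ℍ → ℂ, (∀ l : ℕ, ∃ h : ModularForm 𝒮ℒ (2 + 4 * (l : ℤ)), ⇑h = t l) ∧
           (⇑f) * (∑ i ∈ Finset.range (m + 1), ((i + 1 : ℕ) : ℂ) • (c (i + 1) * (⇑θ) ^ i)) =
             ∑ n ∈ Finset.range (m + 1),
               (∑ i ∈ Finset.Icc (n + 1) (m + 1), c i * t (i - n - 1)) * (⇑θ) ^ n) ∧
        (∃ s : ℕ → ℍ → ℂ, (∀ i ≤ m, ∃ h : CuspForm 𝒮ℒ (2 * ((i + 1 : ℕ) : ℤ)), ⇑h = s i) ∧
           (⇑f) ^ (m + 1) + ∑ i ∈ Finset.range (m + 1), s i * (⇑f) ^ (m - i) = 0)) := by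
  classical
  have hpos : 0 < Fintype.card (Q N) := Fintype.card_pos_iff.mpr ⟨((1 : 𝒮ℒ) : Q N)⟩
  obtain ⟨m, hM⟩ : ∃ m, Fintype.card (Q N) = m + 1 := ⟨Fintype.card (Q N) - 1, by omega⟩
  have hq₀ : ∀ z : ℍ, cj θ ((1 : 𝒮ℒ) : Q N) z = θ z := fun z => congrFun (cj_one θ) z
  refine ⟨m, fun i z => (phi (fun q : Q N => cj θ q z)).coeff i, ?_, ?_, ?_, ?_, ?_, ?_⟩
  · -- level one
    intro i hi
    obtain ⟨h, hh⟩ := esymmFun_mem_MF θ (m + 1 - i)
    refine ⟨((-1 : ℂ) ^ (m + 1 - i)) • h, ?_⟩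
    funext z
    show (-1 : ℂ) ^ (m + 1 - i) * h z = (phi (fun q : Q N => cj θ q z)).coeff i
    rw [phi_coeff_eq_esymm _ hM hi, show h z = esymmFun θ (m + 1 - i) z from congrFun hh z]
    simp [esymmFun, Finset.sum_apply, Finset.prod_apply]
  · funext z
    exact phi_coeff_card _ hM
  · funext z
    have := phi_root (fun q : Q N => cj θ q z) hM ((1 : 𝒮ℒ) : Q N)
    simp only [hq₀] at this
    simpa [Finset.sum_apply] using this
  · intro h0
    apply prod_sub_cj_ne_zero θ hθ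
    funext z
    have h1 := congrFun h0 z
    have h2 := phi_deriv (fun q : Q N => cj θ q z) hM ((1 : 𝒮ℒ) : Q N)
    simp only [hq₀] at h2
    simp only [Finset.sum_apply, Pi.smul_apply, Pi.mul_apply, Pi.pow_apply, Pi.zero_apply] at h1
    rw [h1] at h2
    simpa [Finset.prod_apply] using h2.symm
  · intro c' hc' h1 h0 i hi
    funext z
    exact rigidity θ hθ hM c' hc' h1 h0 i hi z
  · intro f
    have hf₀ : ∀ z : ℍ, cj f ((1 : 𝒮ℒ) : Q N) z = f z := fun z => congrFun (cj_one f) z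
    refine ⟨⟨fun l => ∑ q : Q N, cj f q * cj θ q ^ l, fun l => traceFun_mem_MF' f θ l, ?_⟩,
      ⟨fun i z => (phi (fun q : Q N => cj f q z)).coeff (m - i), ?_, ?_⟩⟩
    · funext z
      have h2 := phi_deriv (fun q : Q N => cj θ q z) hM ((1 : 𝒮ℒ) : Q N)
      have h3 := phi_lagrange (fun q : Q N => cj θ q z) (fun q : Q N => cj f q z) hM
        ((1 : 𝒮ℒ) : Q N)
      simp only [hq₀, hf₀] at h2 h3
      rw [← h2] at h3
      simpa [Finset.sum_apply, Finset.prod_apply] using h3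
    · intro i hi
      obtain ⟨h, hh⟩ := esymmFun_mem_CF f (i + 1) (by omega)
      refine ⟨((-1 : ℂ) ^ (i + 1)) • h, ?_⟩
      funext z
      show (-1 : ℂ) ^ (i + 1) * h z = (phi (fun q : Q N => cj f q z)).coeff (m - i)
      have hmi : m + 1 - (m - i) = i + 1 := by omega
      rw [phi_coeff_eq_esymm _ hM (by omega : m - i ≤ m + 1), hmi,
        show h z = esymmFun f (i + 1) z from congrFun hh z]
      simp [esymmFun, Finset.sum_apply, Finset.prod_apply]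
    · funext z
      have := phi_monic_root (fun q : Q N => cj f q z) hM ((1 : 𝒮ℒ) : Q N)
      simp only [hf₀] at this
      simpa [Finset.sum_apply] using this

end Fermat.Agent.S23L
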