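/-
S23 library, module (Div): division of holomorphic functions on ℍ given a monic
integrality relation.
-/
import Mathlib

set_option autoImplicit false

open UpperHalfPlane
open scoped MatrixGroups ModularForm Manifold Topology

namespace Fermat.Agent.S23L.Div

open Filter

/-- Strict lower bound for the order of a finite sum of meromorphic functions. -/
lemma lt_order_sum {ι : Type*} (t : Finset ι) (f : ι → ℂ → ℂ) (z : ℂ) (c : WithTop ℤ)
    (hc : c < ⊤) (hf : ∀ i ∈ t, MeromorphicAt (f i) z)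
    (h : ∀ i ∈ t, c < meromorphicOrderAt (f i) z) :
    MeromorphicAt (∑ i ∈ t, f i) z ∧ c < meromorphicOrderAt (∑ i ∈ t, f i) z := by
  classical
  induction t using Finset.induction_on with
  | empty =>
    refine ⟨(MeromorphicAt.const (0 : ℂ) z : MeromorphicAt (fun _ : ℂ => (0 : ℂ)) z), ?_⟩
    have h0 : meromorphicOrderAt (0 : ℂ → ℂ) z = ⊤ := meromorphicOrderAt_eq_top_iff.2 (by simp)
    simpa [h0] using hc
  | insert a t ha ih =>
    obtain ⟨h1, h2⟩ := ih (fun i hi => hf i (Finset.mem_insert_of_mem hi))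
      (fun i hi => h i (Finset.mem_insert_of_mem hi))
    rw [Finset.sum_insert ha]
    refine ⟨(hf a (Finset.mem_insert_self _ _)).add h1,
      lt_of_lt_of_le ?_ (meromorphicOrderAt_add (hf a (Finset.mem_insert_self _ _)) h1)⟩
    exact lt_min (h a (Finset.mem_insert_self _ _)) h2

/-- A meromorphic germ which is a root of a monic polynomial with analytic coefficients has
nonnegative order. -/
lemma order_nonneg {m : ℕ} (q : ℂ → ℂ) (σ : ℕ → ℂ → ℂ) (z : ℂ) (hq : MeromorphicAt q z)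
    (hσ : ∀ i, AnalyticAt ℂ (σ i) z)
    (heq : ∀ᶠ w in 𝓝[≠] z,
      q w ^ (m + 1) + ∑ i ∈ Finset.range (m + 1), σ i w * q w ^ (m - i) = 0) :
    0 ≤ meromorphicOrderAt q z := by
  by_contra hneg
  rw [not_le] at hneg
  have hne : meromorphicOrderAt q z ≠ ⊤ := hneg.ne_top
  obtain ⟨n, hn⟩ := WithTop.ne_top_iff_exists.1 hne
  have hn0 : n < 0 := by
    rw [← hn] at hneg
    exact_mod_cast hneg
  have hA : meromorphicOrderAt (q ^ (m + 1)) z = (((m + 1 : ℕ) : ℤ) * n : ℤ) := by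
    rw [meromorphicOrderAt_pow hq, ← hn]
    push_cast
    rfl
  have hB := lt_order_sum (Finset.range (m + 1)) (fun i => σ i * q ^ (m - i)) z
    (((m + 1 : ℕ) : ℤ) * n : ℤ) (WithTop.coe_lt_top _)
    (fun i _ => (hσ i).meromorphicAt.mul (hq.pow _)) (by
      intro i hi
      rw [meromorphicOrderAt_mul (hσ i).meromorphicAt (hq.pow _), meromorphicOrderAt_pow hq, ← hn]
      have h0 := (hσ i).meromorphicOrderAt_nonneg
      have h1 : ((((m + 1 : ℕ) : ℤ) * n : ℤ) : WithTop ℤ) < (((m - i : ℕ) : ℤ) * n : ℤ) := by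
        rw [WithTop.coe_lt_coe]
        have : ((m - i : ℕ) : ℤ) < ((m + 1 : ℕ) : ℤ) := by
          have := Finset.mem_range.1 hi
          omega
        nlinarith
      calc ((((m + 1 : ℕ) : ℤ) * n : ℤ) : WithTop ℤ) < (((m - i : ℕ) : ℤ) * n : ℤ) := h1
        _ = 0 + (((m - i : ℕ) : ℤ) * n : ℤ) := by rw [zero_add]
        _ ≤ meromorphicOrderAt (σ i) z + (((m - i : ℕ) : ℤ) * n : ℤ) := by gcongr
        _ = _ := by push_cast; rfl)
  have hsum := meromorphicOrderAt_add_eq_left_of_lt hB.1 (hA ▸ hB.2)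
  have htop : meromorphicOrderAt
      (q ^ (m + 1) + ∑ i ∈ Finset.range (m + 1), σ i * q ^ (m - i)) z = ⊤ := by
    rw [meromorphicOrderAt_eq_top_iff]
    filter_upwards [heq] with w hw
    simpa [Finset.sum_apply] using hw
  rw [hsum, hA] at htop
  exact WithTop.coe_ne_top htop

end Fermat.Agent.S23L.Div

namespace Fermat.Agent.S23L

open Filter Fermat.Agent.S23L.Div

/-- (Div) If `H, Ψ, s i` are holomorphic on `ℍ`, `Ψ ≠ 0`, and
`H^(m+1) + ∑_{i ≤ m} s i * H^(m-i) * Ψ^(i+1) = 0` (i.e. `H/Ψ` is a root of the monic polynomial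
`X^(m+1) + ∑ s i X^(m-i)`), then `H = g * Ψ` for a holomorphic `g`. -/
theorem exists_mdiff_quotient {m : ℕ} (H Ψ : ℍ → ℂ) (s : ℕ → ℍ → ℂ) (hH : MDiff H) (hΨ : MDiff Ψ)
    (hs : ∀ i, MDiff (s i)) (hΨ0 : Ψ ≠ 0)
    (heq : H ^ (m + 1) + ∑ i ∈ Finset.range (m + 1), s i * H ^ (m - i) * Ψ ^ (i + 1) = 0) :
    ∃ g : ℍ → ℂ, MDiff g ∧ g * Ψ = H := by
  set U : Set ℂ := {z : ℂ | 0 < z.im} with hU
  have hUo : IsOpen U := isOpen_upperHalfPlaneSet
  have hUc : IsPreconnected U :=
    (Complex.isConnected_of_upperHalfPlane subset_rfl (by grind)).isPreconnected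
  have hHa : AnalyticOnNhd ℂ (H ∘ ofComplex) U :=
    (UpperHalfPlane.mdifferentiable_iff.mp hH).analyticOnNhd hUo
  have hΨa : AnalyticOnNhd ℂ (Ψ ∘ ofComplex) U :=
    (UpperHalfPlane.mdifferentiable_iff.mp hΨ).analyticOnNhd hUo
  have hsa : ∀ i, AnalyticOnNhd ℂ (s i ∘ ofComplex) U := fun i =>
    (UpperHalfPlane.mdifferentiable_iff.mp (hs i)).analyticOnNhd hUo
  set h : ℂ → ℂ := H ∘ ofComplex with hh
  set ψ : ℂ → ℂ := Ψ ∘ ofComplex with hψ
  -- pointwise values
  have hval : ∀ (F : ℍ → ℂ) (τ : ℍ), (F ∘ ofComplex) (τ : ℂ) = F τ := fun F τ => by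
    rw [Function.comp_apply, ofComplex_apply]
  -- `ψ` has finite order everywhere
  obtain ⟨τ₀, hτ₀⟩ : ∃ τ₀, Ψ τ₀ ≠ 0 := by
    by_contra hcon
    exact hΨ0 (funext fun τ => not_not.1 fun hτ => hcon ⟨τ, hτ⟩)
  have hψM : MeromorphicOn ψ U := fun z hz => (hΨa z hz).meromorphicAt
  have hord₀ : meromorphicOrderAt ψ (τ₀ : ℂ) ≠ ⊤ := by
    rw [meromorphicOrderAt_ne_top_iff_eventually_ne_zero (hψM _ τ₀.im_pos)]
    have hc : ContinuousAt ψ (τ₀ : ℂ) := (hΨa _ τ₀.im_pos).continuousAt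
    have : ∀ᶠ w in 𝓝 (τ₀ : ℂ), ψ w ≠ 0 :=
      hc.eventually_ne (by rw [hψ, hval]; exact hτ₀)
    exact this.filter_mono nhdsWithin_le_nhds
  have hord : ∀ z ∈ U, meromorphicOrderAt ψ z ≠ ⊤ := fun z hz =>
    hψM.meromorphicOrderAt_ne_top_of_isPreconnected hUc τ₀.im_pos hz hord₀
  -- the quotient
  set q : ℂ → ℂ := h / ψ with hq
  have hqM : MeromorphicOn q U := fun z hz =>
    (hHa z hz).meromorphicAt.div (hΨa z hz).meromorphicAt
  have hqord : ∀ z ∈ U, 0 ≤ meromorphicOrderAt q z := by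
    intro z hz
    refine order_nonneg (m := m) q (fun i => s i ∘ ofComplex) z (hqM z hz)
      (fun i => hsa i z hz) ?_
    have h1 := (meromorphicOrderAt_ne_top_iff_eventually_ne_zero (hψM z hz)).1 (hord z hz)
    have h2 : ∀ᶠ w in 𝓝[≠] z, w ∈ U := mem_nhdsWithin_of_mem_nhds (hUo.mem_nhds hz)
    filter_upwards [h1, h2] with w hw1 hw2
    have hw := congrFun heq (ofComplex w)
    simp only [Pi.add_apply, Pi.pow_apply, Finset.sum_apply, Pi.mul_apply, Pi.zero_apply] at hw
    have hψw : ψ w = Ψ (ofComplex w) := rfl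
    rw [hψw] at hw1
    simp only [hq, hh, hψ, Pi.div_apply, Function.comp_apply]
    have key : (H (ofComplex w) / Ψ (ofComplex w)) ^ (m + 1)
        + ∑ i ∈ Finset.range (m + 1), s i (ofComplex w) * (H (ofComplex w) / Ψ (ofComplex w)) ^ (m - i)
        = (H (ofComplex w) ^ (m + 1) + ∑ i ∈ Finset.range (m + 1),
            s i (ofComplex w) * H (ofComplex w) ^ (m - i) * Ψ (ofComplex w) ^ (i + 1))
          / Ψ (ofComplex w) ^ (m + 1) := by
      rw [add_div, Finset.sum_div, div_pow]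
      congr 1
      refine Finset.sum_congr rfl fun i hi => ?_
      have hi' : m + 1 = (m - i) + (i + 1) := by
        have := Finset.mem_range.1 hi
        omega
      have hp : Ψ (ofComplex w) ^ (m + 1) = Ψ (ofComplex w) ^ (m - i) * Ψ (ofComplex w) ^ (i + 1) := by
        rw [← pow_add, ← hi']
      rw [div_pow, hp]
      field_simp
    rw [key, hw, zero_div]
  -- the normal form
  set G : ℂ → ℂ := toMeromorphicNFOn q U with hG
  have hGa : ∀ z ∈ U, AnalyticAt ℂ G z := by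
    intro z hz
    have hNF : MeromorphicNFAt G z := meromorphicNFOn_toMeromorphicNFOn q U hz
    rw [← hNF.meromorphicOrderAt_nonneg_iff_analyticAt, hG,
      meromorphicOrderAt_toMeromorphicNFOn hqM hz]
    exact hqord z hz
  refine ⟨fun τ => G τ, ?_, ?_⟩
  · rw [UpperHalfPlane.mdifferentiable_iff]
    have hGd : DifferentiableOn ℂ G U := fun z hz => (hGa z hz).differentiableAt.differentiableWithinAt
    refine hGd.congr fun z hz => ?_
    change 0 < z.im at hz
    simp [Function.comp_apply, ofComplex_apply_of_im_pos hz]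
  · funext τ
    simp only [Pi.mul_apply]
    have hz : (τ : ℂ) ∈ U := τ.im_pos
    by_cases hτ : Ψ τ = 0
    · have hw := congrFun heq τ
      simp only [Pi.add_apply, Pi.pow_apply, Finset.sum_apply, Pi.mul_apply, Pi.zero_apply,
        hτ] at hw
      simp only [ne_eq, Nat.add_eq_zero_iff, one_ne_zero, and_false, not_false_eq_true, zero_pow,
        mul_zero, Finset.sum_const_zero, add_zero] at hw
      rw [hτ, mul_zero, (pow_eq_zero_iff (by omega)).1 hw]
    · have hψτ : ψ τ ≠ 0 := by rw [hψ, hval]; exact hτ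
      have hqa : AnalyticAt ℂ q τ := (hHa _ hz).div (hΨa _ hz) hψτ
      have hGτ : G τ = q τ := by
        rw [hG, toMeromorphicNFOn_eq_toMeromorphicNFAt hqM hz,
          toMeromorphicNFAt_eq_self.2 hqa.meromorphicNFAt]
      rw [hGτ, hq, Pi.div_apply, hh, hψ, hval, hval]
      field_simp

end Fermat.Agent.S23L
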