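/-
S23 library, module (L1): q-expansions of level-one modular forms are stable under
coefficientwise ring endomorphisms of ℂ.
-/
import Mathlib

set_option autoImplicit false

open UpperHalfPlane ModularFormClass
open scoped MatrixGroups ModularForm Manifold

namespace Fermat.Agent.S23L

namespace LevelOneTwist

open ModularForm EisensteinSeries

/-- The q-expansion of the normalised Eisenstein series is fixed by any ring endomorphism. -/
lemma map_qExpansion_E (σ : ℂ →+* ℂ) {k : ℕ} (hk : 3 ≤ k) (hk2 : Even k) :
    (qExpansion 1 (E hk)).map σ = qExpansion 1 (E hk) := by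
  ext m
  rw [PowerSeries.coeff_map, E_qExpansion_coeff hk hk2]
  split_ifs with h
  · simp
  · rw [map_mul, map_neg, map_div₀, map_mul, map_natCast, map_natCast, map_ratCast, map_ofNat]

lemma map_smul' (σ : ℂ →+* ℂ) (c : ℂ) (p : PowerSeries ℂ) :
    (c • p).map σ = σ c • p.map σ := by
  ext m
  simp only [PowerSeries.coeff_map, PowerSeries.coeff_smul, smul_eq_mul, map_mul]

/-- The q-expansion of `Δ` in terms of those of `E₄`, `E₆`. -/
lemma qExpansion_discriminant :
    qExpansion 1 discriminant =
      (1 / 1728 : ℂ) • (qExpansion 1 E₄ ^ 3 - qExpansion 1 E₆ ^ 2) := by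
  have h : (discriminant : ℍ → ℂ) =
      ⇑((1 / 1728 : ℂ) • (ModularForm.mcast (by decide) (E₄.pow 3) -
        ModularForm.mcast (by decide) (E₆.pow 2) : ModularForm 𝒮ℒ 12)) := by
    funext z
    rw [discriminant_eq_E₄_cube_sub_E₆_sq z]
    simp only [FunLike.coe_smul, FunLike.coe_sub, coe_mcast, coe_pow, Pi.smul_apply,
      Pi.sub_apply, Pi.pow_apply, smul_eq_mul]
    ring
  rw [h, FunLike.coe_smul, ModularForm.qExpansion_smul one_pos one_mem_strictPeriods_SL,
    FunLike.coe_sub, ModularForm.qExpansion_sub one_pos one_mem_strictPeriods_SL,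
    ModularForm.qExpansion_mcast, ModularForm.qExpansion_mcast,
    ModularForm.qExpansion_pow one_pos one_mem_strictPeriods_SL,
    ModularForm.qExpansion_pow one_pos one_mem_strictPeriods_SL]

/-- The q-expansion of `Δ` is fixed by any ring endomorphism. -/
lemma map_qExpansion_discriminant (σ : ℂ →+* ℂ) :
    (qExpansion 1 discriminant).map σ = qExpansion 1 discriminant := by
  have h4 := map_qExpansion_E σ (k := 4) (by norm_num) ⟨2, rfl⟩
  have h6 := map_qExpansion_E σ (k := 6) (by norm_num) ⟨3, rfl⟩
  have hc : σ (1 / 1728 : ℂ) = 1 / 1728 := by rw [map_div₀, map_one, map_ofNat]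
  rw [qExpansion_discriminant]
  rw [map_smul', hc, map_sub, map_pow, map_pow, h4, h6]

lemma aux (σ : ℂ →+* ℂ) (n : ℕ) : ∀ k : ℤ, k < n → ∀ f : ModularForm 𝒮ℒ k,
    ∃ g : ModularForm 𝒮ℒ k, qExpansion 1 g = (qExpansion 1 f).map σ := by
  induction n with
  | zero =>
    intro k hk f
    refine ⟨0, ?_⟩
    have hf : (f : ℍ → ℂ) = 0 := levelOne_neg_weight_eq_zero (by simpa using hk) f
    rw [hf, FunLike.coe_zero, qExpansion_zero, map_zero]
  | succ n ih =>
    intro k hk f
    rcases lt_or_ge k n with hlt | hge
    · exact ih k hlt f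
    have hkn : k = n := by push_cast at hk; omega
    subst hkn
    -- trivial cases: `f = 0`
    have hzero : f = 0 → ∃ g : ModularForm 𝒮ℒ (n : ℤ),
        qExpansion 1 g = (qExpansion 1 f).map σ := by
      rintro rfl
      exact ⟨0, by rw [FunLike.coe_zero, qExpansion_zero, map_zero]⟩
    rcases Nat.even_or_odd n with hev | hodd
    swap
    · exact hzero (levelOne_odd_weight_eq_zero (by exact_mod_cast hodd) f)
    rcases Nat.lt_or_ge n 3 with h3 | h3
    · have : n = 0 ∨ n = 2 := by
        rcases hev with ⟨m, rfl⟩; omega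
      rcases this with rfl | rfl
      · -- weight zero: constants
        obtain ⟨c, hc⟩ := levelOne_weight_zero_const (F := ModularForm 𝒮ℒ ((0 : ℕ) : ℤ)) f
        refine ⟨ModularForm.mcast (by simp) (σ c • (1 : ModularForm 𝒮ℒ 0)), ?_⟩
        have hf : (f : ℍ → ℂ) = ⇑(c • (1 : ModularForm 𝒮ℒ 0)) := by
          rw [hc]; funext z; simp
        rw [ModularForm.qExpansion_mcast, hf, FunLike.coe_smul, FunLike.coe_smul,
          ModularForm.qExpansion_smul one_pos one_mem_strictPeriods_SL,
          ModularForm.qExpansion_smul one_pos one_mem_strictPeriods_SL,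
          ModularForm.qExpansion_one]
        ext m
        simp only [PowerSeries.coeff_map, PowerSeries.coeff_smul, PowerSeries.coeff_one,
          smul_eq_mul]
        split_ifs <;> simp
      · -- weight two
        exact hzero (rank_zero_iff_forall_zero.mp levelOne_weight_two_rank_zero f)
    · -- weight `≥ 4`, even
      set a₀ : ℂ := (qExpansion 1 f).coeff 0 with ha₀
      have hE0 := E_qExpansion_coeff_zero h3 hev
      set h : ModularForm 𝒮ℒ (n : ℤ) := f - a₀ • E h3 with hh
      have hq : qExpansion 1 h = qExpansion 1 f - a₀ • qExpansion 1 (E h3) := by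
        rw [hh, FunLike.coe_sub, ModularForm.qExpansion_sub one_pos one_mem_strictPeriods_SL,
          FunLike.coe_smul, ModularForm.qExpansion_smul one_pos one_mem_strictPeriods_SL]
      have h0 : (qExpansion 1 h).coeff 0 = 0 := by
        rw [hq, map_sub, PowerSeries.coeff_smul, hE0]
        simp [ha₀]
      have hfac := qExpansion_eq_qExpansion_discriminant_mul h h0
      obtain ⟨g₁, hg₁⟩ := ih ((n : ℤ) - 12) (by omega)
        (CuspForm.discriminantEquiv (toCuspForm h h0))
      refine ⟨σ a₀ • E h3 + ModularFormClass.modularForm (CuspForm.ofMulDiscriminant g₁), ?_⟩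
      have hg : ⇑(ModularFormClass.modularForm (CuspForm.ofMulDiscriminant g₁) :
          ModularForm 𝒮ℒ (n : ℤ)) = discriminant * ⇑g₁ := by
        funext z; rfl
      have hgq : qExpansion 1 (ModularFormClass.modularForm (CuspForm.ofMulDiscriminant g₁) :
          ModularForm 𝒮ℒ (n : ℤ)) = qExpansion 1 discriminant * qExpansion 1 g₁ := by
        rw [hg, ← CuspForm.coe_discriminant]
        exact ModularForm.qExpansion_mul_coe one_pos one_mem_strictPeriods_SL _ _
      have hf : qExpansion 1 f = a₀ • qExpansion 1 (E h3) + qExpansion 1 discriminant *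
          qExpansion 1 (CuspForm.discriminantEquiv (toCuspForm h h0)) := by
        rw [← hfac, hq]; ring
      rw [FunLike.coe_add, ModularForm.qExpansion_add one_pos one_mem_strictPeriods_SL,
        FunLike.coe_smul, ModularForm.qExpansion_smul one_pos one_mem_strictPeriods_SL,
        hgq, hg₁, hf, map_add, map_mul, map_qExpansion_discriminant, map_smul',
        map_qExpansion_E σ h3 hev]

end LevelOneTwist

/-- (L1) -/
theorem levelOne_twist (σ : ℂ →+* ℂ) (k : ℤ) (f : ModularForm 𝒮ℒ k) :
    ∃ g : ModularForm 𝒮ℒ k, qExpansion 1 g = (qExpansion 1 f).map σ :=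
  LevelOneTwist.aux σ (k.toNat + 1) k (by push_cast; omega) f

end Fermat.Agent.S23L
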