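/-
S23 library, auxiliary module for (C) (owner helper5): calculus of `q`-expandable functions
(holomorphic on `ℍ`, `1`-periodic, bounded at `i∞`) and of `σ`-conjugate pairs.
All names live in `Fermat.Agent.S23L.Twist`.
-/
import Mathlib
import Fermat.Statements.S23
import Fermat.Prelude.Thm_UpperHalfPlane_eq_of_forall_qCoeff_eq
import Fermat.Prelude.Thm_CongruenceSubgroup_one_mem_strictPeriods_Gamma0

set_option autoImplicit false

open UpperHalfPlane ModularFormClass CongruenceSubgroup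
open scoped MatrixGroups ModularForm Manifold

namespace Fermat.Agent.S23L.Twist

/-- `q`-expandable functions: holomorphic on `ℍ`, `1`-periodic, bounded at `i∞`. -/
structure QExp (F : ℍ → ℂ) : Prop where
  hol : MDiff F
  per : Function.Periodic (F ∘ ofComplex) 1
  bdd : IsBoundedAtImInfty F

/-- `F'` is a `σ`-conjugate of `F`: both are `q`-expandable and the `q`-expansion of `F'` is
obtained from that of `F` by applying `σ` to every coefficient. -/
structure ConjPair (σ : ℂ →+* ℂ) (F F' : ℍ → ℂ) : Prop where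
  left : QExp F
  right : QExp F'
  qexp : qExpansion 1 F' = (qExpansion 1 F).map σ

variable {F G F' G' : ℍ → ℂ} {σ : ℂ →+* ℂ}

theorem QExp.analyticAt (h : QExp F) : AnalyticAt ℂ (cuspFunction 1 F) 0 :=
  UpperHalfPlane.analyticAt_cuspFunction_zero one_pos h.per h.hol h.bdd

theorem QExp.zero : QExp (0 : ℍ → ℂ) := by
  refine ⟨?_, ?_, ?_⟩
  · exact mdifferentiable_const
  · intro x
    simp
  · exact zero_form_isBoundedAtImInfty

theorem QExp.one : QExp (1 : ℍ → ℂ) := by
  refine ⟨?_, ?_, ?_⟩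
  · exact mdifferentiable_const
  · intro x
    simp
  · exact Filter.const_boundedAtFilter atImInfty (1 : ℂ)

theorem QExp.add (hF : QExp F) (hG : QExp G) : QExp (F + G) := by
  refine ⟨hF.hol.add hG.hol, ?_, hF.bdd.add hG.bdd⟩
  intro x
  have h1 := hF.per x
  have h2 := hG.per x
  simp only [Function.comp_apply, Pi.add_apply] at h1 h2 ⊢
  rw [h1, h2]

theorem QExp.neg (hF : QExp F) : QExp (-F) := by
  refine ⟨hF.hol.neg, ?_, hF.bdd.neg⟩
  intro x
  have h1 := hF.per x
  simp only [Function.comp_apply, Pi.neg_apply] at h1 ⊢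
  rw [h1]

theorem QExp.sub (hF : QExp F) (hG : QExp G) : QExp (F - G) := by
  rw [sub_eq_add_neg]
  exact hF.add hG.neg

theorem QExp.mul (hF : QExp F) (hG : QExp G) : QExp (F * G) := by
  refine ⟨hF.hol.mul hG.hol, ?_, hF.bdd.mul hG.bdd⟩
  intro x
  have h1 := hF.per x
  have h2 := hG.per x
  simp only [Function.comp_apply, Pi.mul_apply] at h1 h2 ⊢
  rw [h1, h2]

theorem QExp.smul (a : ℂ) (hF : QExp F) : QExp (a • F) := by
  refine ⟨hF.hol.const_smul a, ?_, hF.bdd.smul a⟩
  intro x
  have h1 := hF.per x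
  simp only [Function.comp_apply, Pi.smul_apply] at h1 ⊢
  rw [h1]

theorem QExp.pow (hF : QExp F) (n : ℕ) : QExp (F ^ n) := by
  induction n with
  | zero => simpa using QExp.one
  | succ n ih => rw [pow_succ]; exact ih.mul hF

theorem QExp.sum {ι : Type*} (s : Finset ι) {H : ι → ℍ → ℂ} (h : ∀ i ∈ s, QExp (H i)) :
    QExp (∑ i ∈ s, H i) := by
  classical
  induction s using Finset.induction_on with
  | empty => simpa using QExp.zero
  | insert a s ha ih =>
    rw [Finset.sum_insert ha]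
    exact (h a (Finset.mem_insert_self a s)).add
      (ih fun i hi => h i (Finset.mem_insert_of_mem hi))

/-- `q`-expansion principle. -/
theorem QExp.eq_zero_of_qExpansion_eq_zero (h : QExp F) (h0 : qExpansion 1 F = 0) : F = 0 :=
  (UpperHalfPlane.qExpansion_eq_zero_iff one_pos h.per h.hol h.bdd).mp h0

theorem QExp.qExpansion_ne_zero (h : QExp F) (h0 : F ≠ 0) : qExpansion 1 F ≠ 0 :=
  fun h1 => h0 (h.eq_zero_of_qExpansion_eq_zero h1)

theorem QExp.qExpansion_mul (hF : QExp F) (hG : QExp G) :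
    qExpansion 1 (F * G) = qExpansion 1 F * qExpansion 1 G :=
  UpperHalfPlane.qExpansion_mul hF.analyticAt hG.analyticAt

/-- Vanishing constant term implies vanishing at `i∞`. -/
theorem QExp.isZeroAtImInfty (h : QExp F) (h0 : (qExpansion 1 F).coeff 0 = 0) :
    IsZeroAtImInfty F := by
  have hc : cuspFunction 1 F 0 = 0 := by
    simpa [UpperHalfPlane.qExpansion_coeff] using h0
  have hF : (cuspFunction 1 F ∘ fun τ : ℍ => Function.Periodic.qParam 1 τ : ℍ → ℂ) = F := by
    funext τ
    simpa using UpperHalfPlane.eq_cuspFunction τ one_ne_zero h.per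
  have ht := h.analyticAt.continuousAt.tendsto.comp
    (UpperHalfPlane.qParam_tendsto_atImInfty (h := 1) one_pos)
  rw [hF, hc] at ht
  exact ht

theorem QExp.of_levelOne {k : ℤ} (g : ModularForm 𝒮ℒ k) : QExp (⇑g) :=
  ⟨ModularFormClass.holo g,
    SlashInvariantFormClass.periodic_comp_ofComplex g _root_.one_mem_strictPeriods_SL,
    ModularFormClass.bdd_at_infty g⟩

theorem QExp.of_cusp_levelOne {k : ℤ} (g : CuspForm 𝒮ℒ k) : QExp (⇑g) :=
  ⟨ModularFormClass.holo g,
    SlashInvariantFormClass.periodic_comp_ofComplex g _root_.one_mem_strictPeriods_SL,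
    ModularFormClass.bdd_at_infty g⟩

theorem qExpansion_coeff_zero_of_cusp_levelOne {k : ℤ} (g : CuspForm 𝒮ℒ k) :
    (qExpansion 1 (⇑g)).coeff 0 = 0 :=
  CuspFormClass.qExpansion_coeff_zero g one_pos _root_.one_mem_strictPeriods_SL

theorem QExp.of_Gamma0 {N : ℕ} [NeZero N] {k : ℤ} (g : ModularForm (Gamma0 N) k) : QExp (⇑g) :=
  ⟨ModularFormClass.holo g,
    SlashInvariantFormClass.periodic_comp_ofComplex g
      (CongruenceSubgroup.one_mem_strictPeriods_Gamma0 N),
    ModularFormClass.bdd_at_infty g⟩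

theorem QExp.of_cusp_Gamma0 {N : ℕ} [NeZero N] {k : ℤ} (g : CuspForm (Gamma0 N) k) :
    QExp (⇑g) :=
  ⟨ModularFormClass.holo g,
    SlashInvariantFormClass.periodic_comp_ofComplex g
      (CongruenceSubgroup.one_mem_strictPeriods_Gamma0 N),
    ModularFormClass.bdd_at_infty g⟩

theorem ConjPair.zero (σ : ℂ →+* ℂ) : ConjPair σ 0 0 :=
  ⟨QExp.zero, QExp.zero, by simp [UpperHalfPlane.qExpansion_zero]⟩

theorem ConjPair.one (σ : ℂ →+* ℂ) : ConjPair σ 1 1 :=
  ⟨QExp.one, QExp.one, by simp [UpperHalfPlane.qExpansion_one]⟩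

theorem ConjPair.add (h₁ : ConjPair σ F F') (h₂ : ConjPair σ G G') :
    ConjPair σ (F + G) (F' + G') :=
  ⟨h₁.left.add h₂.left, h₁.right.add h₂.right, by
    rw [UpperHalfPlane.qExpansion_add h₁.right.analyticAt h₂.right.analyticAt,
      UpperHalfPlane.qExpansion_add h₁.left.analyticAt h₂.left.analyticAt, map_add,
      h₁.qexp, h₂.qexp]⟩

theorem ConjPair.neg (h₁ : ConjPair σ F F') : ConjPair σ (-F) (-F') :=
  ⟨h₁.left.neg, h₁.right.neg, by
    rw [UpperHalfPlane.qExpansion_neg h₁.right.analyticAt,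
      UpperHalfPlane.qExpansion_neg h₁.left.analyticAt, map_neg, h₁.qexp]⟩

theorem ConjPair.sub (h₁ : ConjPair σ F F') (h₂ : ConjPair σ G G') :
    ConjPair σ (F - G) (F' - G') :=
  ⟨h₁.left.sub h₂.left, h₁.right.sub h₂.right, by
    rw [UpperHalfPlane.qExpansion_sub h₁.right.analyticAt h₂.right.analyticAt,
      UpperHalfPlane.qExpansion_sub h₁.left.analyticAt h₂.left.analyticAt, map_sub,
      h₁.qexp, h₂.qexp]⟩

theorem ConjPair.mul (h₁ : ConjPair σ F F') (h₂ : ConjPair σ G G') :
    ConjPair σ (F * G) (F' * G') :=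
  ⟨h₁.left.mul h₂.left, h₁.right.mul h₂.right, by
    rw [h₁.right.qExpansion_mul h₂.right, h₁.left.qExpansion_mul h₂.left, map_mul,
      h₁.qexp, h₂.qexp]⟩

theorem ConjPair.smul (a : ℂ) (h₁ : ConjPair σ F F') : ConjPair σ (a • F) (σ a • F') :=
  ⟨h₁.left.smul a, h₁.right.smul (σ a), by
    rw [UpperHalfPlane.qExpansion_smul h₁.right.analyticAt,
      UpperHalfPlane.qExpansion_smul h₁.left.analyticAt, h₁.qexp]
    ext n
    simp⟩

theorem ConjPair.natCast_smul (n : ℕ) (h₁ : ConjPair σ F F') :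
    ConjPair σ ((n : ℂ) • F) ((n : ℂ) • F') := by
  simpa using h₁.smul (n : ℂ)

theorem ConjPair.pow (h₁ : ConjPair σ F F') (n : ℕ) : ConjPair σ (F ^ n) (F' ^ n) := by
  induction n with
  | zero => simpa using ConjPair.one σ
  | succ n ih => rw [pow_succ, pow_succ]; exact ih.mul h₁

theorem ConjPair.sum {ι : Type*} (s : Finset ι) {H H' : ι → ℍ → ℂ}
    (h : ∀ i ∈ s, ConjPair σ (H i) (H' i)) : ConjPair σ (∑ i ∈ s, H i) (∑ i ∈ s, H' i) := by
  classical
  induction s using Finset.induction_on with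
  | empty => simpa using ConjPair.zero σ
  | insert a s ha ih =>
    rw [Finset.sum_insert ha, Finset.sum_insert ha]
    exact (h a (Finset.mem_insert_self a s)).add
      (ih fun i hi => h i (Finset.mem_insert_of_mem hi))

theorem ConjPair.eq_zero (h : ConjPair σ F F') (h0 : F = 0) : F' = 0 := by
  apply h.right.eq_zero_of_qExpansion_eq_zero
  rw [h.qexp, h0, UpperHalfPlane.qExpansion_zero, map_zero]

/-- A `q`-expandable function whose `q`-expansion is fixed by `σ` is its own `σ`-conjugate. -/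
theorem ConjPair.of_map_eq (σ : ℂ →+* ℂ) (h : QExp F)
    (hσ : (qExpansion 1 F).map σ = qExpansion 1 F) : ConjPair σ F F :=
  ⟨h, h, hσ.symm⟩

/-- The data produced by `levelOne_twist` is a conjugate pair. -/
theorem ConjPair.of_levelOne {k : ℤ} (h g : ModularForm 𝒮ℒ k)
    (hq : qExpansion 1 (⇑g) = (qExpansion 1 (⇑h)).map σ) : ConjPair σ (⇑h) (⇑g) :=
  ⟨QExp.of_levelOne h, QExp.of_levelOne g, hq⟩

/-- Uniqueness of the conjugate. -/
theorem ConjPair.unique (h₁ : ConjPair σ F F') (h₂ : ConjPair σ F G') : F' = G' := by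
  have h := (h₁.right.sub h₂.right).eq_zero_of_qExpansion_eq_zero (by
    rw [UpperHalfPlane.qExpansion_sub h₁.right.analyticAt h₂.right.analyticAt, h₁.qexp, h₂.qexp,
      sub_self])
  exact sub_eq_zero.mp h

end Fermat.Agent.S23L.Twist
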