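/-
S23 library, module (E): a root of a monic polynomial whose lower coefficients vanish at i∞
vanishes at i∞.
-/
import Mathlib

set_option autoImplicit false

open UpperHalfPlane
open scoped MatrixGroups ModularForm Manifold

namespace Fermat.Agent.S23L

namespace RootZero

/-- Pointwise bound for a root of a monic polynomial. -/
theorem norm_pow_le {m : ℕ} (x : ℂ) (a : ℕ → ℂ)
    (h : x ^ (m + 1) + ∑ i ∈ Finset.range (m + 1), a i * x ^ (m - i) = 0) :
    ‖x‖ ^ (m + 1) ≤ (∑ i ∈ Finset.range (m + 1), ‖a i‖) *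
      (max 1 (∑ i ∈ Finset.range (m + 1), ‖a i‖)) ^ m := by
  set S : ℝ := ∑ i ∈ Finset.range (m + 1), ‖a i‖ with hS
  have hS0 : 0 ≤ S := Finset.sum_nonneg (fun i _ => norm_nonneg _)
  have hx0 : 0 ≤ ‖x‖ := norm_nonneg x
  have h1 : ‖x‖ ^ (m + 1) ≤ ∑ i ∈ Finset.range (m + 1), ‖a i‖ * ‖x‖ ^ (m - i) := by
    have h2 : x ^ (m + 1) = -∑ i ∈ Finset.range (m + 1), a i * x ^ (m - i) :=
      eq_neg_of_add_eq_zero_left h
    calc ‖x‖ ^ (m + 1) = ‖x ^ (m + 1)‖ := (norm_pow x (m + 1)).symm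
      _ = ‖∑ i ∈ Finset.range (m + 1), a i * x ^ (m - i)‖ := by rw [h2, norm_neg]
      _ ≤ ∑ i ∈ Finset.range (m + 1), ‖a i * x ^ (m - i)‖ := norm_sum_le _ _
      _ = ∑ i ∈ Finset.range (m + 1), ‖a i‖ * ‖x‖ ^ (m - i) := by
          refine Finset.sum_congr rfl (fun i _ => ?_)
          rw [norm_mul, norm_pow]
  have hmax1 : (1 : ℝ) ≤ max 1 S := le_max_left _ _
  rcases le_total ‖x‖ 1 with hx | hx
  · -- ‖x‖ ≤ 1
    have h3 : ∑ i ∈ Finset.range (m + 1), ‖a i‖ * ‖x‖ ^ (m - i) ≤ S := by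
      rw [hS]
      refine Finset.sum_le_sum (fun i _ => ?_)
      exact mul_le_of_le_one_right (norm_nonneg _) (pow_le_one₀ hx0 hx)
    calc ‖x‖ ^ (m + 1) ≤ S := h1.trans h3
      _ = S * 1 := (mul_one S).symm
      _ ≤ S * (max 1 S) ^ m := mul_le_mul_of_nonneg_left (one_le_pow₀ hmax1) hS0
  · -- 1 ≤ ‖x‖
    have h3 : ∑ i ∈ Finset.range (m + 1), ‖a i‖ * ‖x‖ ^ (m - i) ≤ S * ‖x‖ ^ m := by
      rw [hS, Finset.sum_mul]
      refine Finset.sum_le_sum (fun i _ => ?_)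
      exact mul_le_mul_of_nonneg_left (pow_le_pow_right₀ hx (Nat.sub_le m i)) (norm_nonneg _)
    have h4 : ‖x‖ ^ (m + 1) ≤ S * ‖x‖ ^ m := h1.trans h3
    have hpos : 0 < ‖x‖ ^ m := pow_pos (lt_of_lt_of_le one_pos hx) m
    have h5 : ‖x‖ ≤ S := by
      rw [pow_succ, mul_comm] at h4
      exact le_of_mul_le_mul_right h4 hpos
    calc ‖x‖ ^ (m + 1) ≤ S * ‖x‖ ^ m := h4
      _ ≤ S * (max 1 S) ^ m :=
          mul_le_mul_of_nonneg_left
            (pow_le_pow_left₀ hx0 (h5.trans (le_max_right _ _)) m) hS0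

end RootZero

/-- (E) A root of a monic polynomial whose lower coefficients all tend to `0` at `i∞`
tends to `0` at `i∞`. -/
theorem isZeroAtImInfty_of_monic {m : ℕ} (u : ℍ → ℂ) (s : ℕ → ℍ → ℂ)
    (hs : ∀ i, IsZeroAtImInfty (s i))
    (heq : u ^ (m + 1) + ∑ i ∈ Finset.range (m + 1), s i * u ^ (m - i) = 0) :
    IsZeroAtImInfty u := by
  have hs' : ∀ i, Filter.Tendsto (s i) atImInfty (nhds 0) := hs
  have hS : Filter.Tendsto (fun z : ℍ => ∑ i ∈ Finset.range (m + 1), ‖s i z‖) atImInfty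
      (nhds 0) := by
    have := tendsto_finsetSum (Finset.range (m + 1))
      (fun i _ => (hs' i).norm)
    simpa using this
  have hB : Filter.Tendsto (fun z : ℍ => (∑ i ∈ Finset.range (m + 1), ‖s i z‖) *
      (max 1 (∑ i ∈ Finset.range (m + 1), ‖s i z‖)) ^ m) atImInfty (nhds 0) := by
    have := hS.mul ((tendsto_const_nhds (x := (1 : ℝ))).max hS |>.pow m)
    simpa using this
  have hpt : ∀ z : ℍ, ‖u z‖ ^ (m + 1) ≤ (∑ i ∈ Finset.range (m + 1), ‖s i z‖) *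
      (max 1 (∑ i ∈ Finset.range (m + 1), ‖s i z‖)) ^ m := by
    intro z
    refine RootZero.norm_pow_le (u z) (fun i => s i z) ?_
    have := congrFun heq z
    simpa using this
  have hpow : Filter.Tendsto (fun z : ℍ => ‖u z‖ ^ (m + 1)) atImInfty (nhds 0) :=
    squeeze_zero (fun z => pow_nonneg (norm_nonneg _) _) hpt hB
  show Filter.Tendsto u atImInfty (nhds 0)
  rw [tendsto_zero_iff_norm_tendsto_zero]
  rw [Metric.tendsto_nhds]
  intro ε hε
  have hε' : 0 < ε ^ (m + 1) := pow_pos hε _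
  filter_upwards [(Metric.tendsto_nhds.mp hpow) (ε ^ (m + 1)) hε'] with z hz
  rw [Real.dist_eq, sub_zero, abs_of_nonneg (pow_nonneg (norm_nonneg _) _)] at hz
  rw [Real.dist_eq, sub_zero, abs_of_nonneg (norm_nonneg _)]
  exact lt_of_pow_lt_pow_left₀ (m + 1) hε.le hz

end Fermat.Agent.S23L
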