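/-
S23 library, module (B): a weight-4 form on Γ₀(N) with rational q-expansion whose
SL₂(ℤ)-stabiliser (under the weight-4 slash action) is exactly Γ₀(N).
Witness: θ = E₄ ∣[4] diag(N,1), i.e. θ(z) = N³·E₄(Nz).   (helper1)
-/
import Mathlib
import Fermat.Statements.S23
import Fermat.Prelude.Def_ModularForm_HeckeOperator
import Fermat.Prelude.Thm_CongruenceSubgroup_one_mem_strictPeriods_Gamma0
import Fermat.Agent.S22.Hermite

set_option autoImplicit false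

open UpperHalfPlane ModularFormClass CongruenceSubgroup
open scoped MatrixGroups ModularForm Manifold Pointwise

namespace Fermat.Agent.S23L

namespace Theta

/-- The integral upper triangular matrix `!![a, b; 0, d]` in `GL (Fin 2) ℝ`. -/
noncomputable abbrev UT (a b d : ℤ) (h : (a : ℝ) * (d : ℝ) ≠ 0) : GL (Fin 2) ℝ :=
  ModularForm.upperTriangularGL (a : ℝ) (b : ℝ) (d : ℝ) h

theorem UT_det (a b d : ℤ) (h : (a : ℝ) * (d : ℝ) ≠ 0) :
    ((UT a b d h).det : ℝ) = (a : ℝ) * (d : ℝ) := by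
  rw [Matrix.GeneralLinearGroup.val_det_apply, ModularForm.val_upperTriangularGL,
    Matrix.det_fin_two_of]
  ring

theorem UT_det_pos (a b d : ℤ) (ha : 0 < a) (hd : 0 < d) (h : (a : ℝ) * (d : ℝ) ≠ 0) :
    0 < ((UT a b d h).det : ℝ) := by
  rw [UT_det]
  exact mul_pos (by exact_mod_cast ha) (by exact_mod_cast hd)

theorem UT_denom (a b d : ℤ) (h : (a : ℝ) * (d : ℝ) ≠ 0) (τ : ℍ) :
    UpperHalfPlane.denom (UT a b d h) τ = (d : ℂ) := by
  simp [UpperHalfPlane.denom, ModularForm.val_upperTriangularGL]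

theorem UT_coe_smul (a b d : ℤ) (ha : 0 < a) (hd : 0 < d) (h : (a : ℝ) * (d : ℝ) ≠ 0) (τ : ℍ) :
    ((UT a b d h • τ : ℍ) : ℂ) = ((a : ℂ) * (τ : ℂ) + (b : ℂ)) / (d : ℂ) := by
  rw [UpperHalfPlane.coe_smul_of_det_pos (UT_det_pos a b d ha hd h)]
  simp [UpperHalfPlane.num, UpperHalfPlane.denom, ModularForm.val_upperTriangularGL]

theorem UT_im_smul (a b d : ℤ) (ha : 0 < a) (hd : 0 < d) (h : (a : ℝ) * (d : ℝ) ≠ 0) (τ : ℍ) :
    (UT a b d h • τ : ℍ).im = (a : ℝ) / (d : ℝ) * τ.im := by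
  have h1 := congrArg Complex.im (UT_coe_smul a b d ha hd h τ)
  rw [UpperHalfPlane.coe_im] at h1
  rw [h1]
  have hd' : (d : ℝ) ≠ 0 := by exact_mod_cast hd.ne'
  have : ((a : ℂ) * (τ : ℂ) + (b : ℂ)) / (d : ℂ)
      = ((((a : ℝ) * τ.re + (b : ℝ)) / (d : ℝ) : ℝ) : ℂ)
        + (((a : ℝ) / (d : ℝ) * τ.im : ℝ) : ℂ) * Complex.I := by
    have hdc : (d : ℂ) ≠ 0 := by exact_mod_cast hd.ne'
    apply Complex.ext
    · simp [Complex.div_re, Complex.normSq]
    · simp [Complex.div_im, Complex.normSq]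
      try field_simp
  rw [this]
  simp

theorem UT_slash_apply (k : ℤ) (a b d : ℤ) (ha : 0 < a) (hd : 0 < d)
    (h : (a : ℝ) * (d : ℝ) ≠ 0) (f : ℍ → ℂ) (τ : ℍ) :
    (f ∣[k] UT a b d h) τ
      = ((a : ℂ) * (d : ℂ)) ^ (k - 1) * (d : ℂ) ^ (-k) * f (UT a b d h • τ) := by
  have hσ : UpperHalfPlane.σ (UT a b d h) = .refl ℝ ℂ := by
    rw [UpperHalfPlane.σ, if_pos (UT_det_pos a b d ha hd h)]
  rw [ModularForm.slash_apply, hσ, UT_det, UT_denom]
  have hpos : (0 : ℝ) < (a : ℝ) * (d : ℝ) := mul_pos (by exact_mod_cast ha) (by exact_mod_cast hd)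
  simp only [ContinuousAlgEquiv.refl_apply, abs_of_pos hpos]
  push_cast
  ring

/-- `diag(N, 1)` as `UT N 0 1`. -/
theorem heckeDiagMatrix_eq_UT (N : ℕ) [NeZero N] (h : ((N : ℤ) : ℝ) * ((1 : ℤ) : ℝ) ≠ 0) :
    ModularForm.heckeDiagMatrix N = UT (N : ℤ) 0 1 h := by
  apply Matrix.GeneralLinearGroup.ext
  intro i j
  rw [ModularForm.val_heckeDiagMatrix (NeZero.ne N), ModularForm.val_upperTriangularGL]
  fin_cases i <;> fin_cases j <;> simp

/-- `Γ₀(N) ⊆ diag(N,1)⁻¹ SL₂(ℤ) diag(N,1)`. -/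
theorem gamma0_le (N : ℕ) [NeZero N] :
    ((Gamma0 N : Subgroup SL(2, ℤ)) : Subgroup (GL (Fin 2) ℝ)) ≤
      ConjAct.toConjAct (ModularForm.heckeDiagMatrix N)⁻¹ • 𝒮ℒ := by
  rintro _ ⟨γ, hγ, rfl⟩
  rw [Subgroup.mem_pointwise_smul_iff_inv_smul_mem, ConjAct.smul_def]
  have hD : ConjAct.ofConjAct (ConjAct.toConjAct (ModularForm.heckeDiagMatrix N)⁻¹)⁻¹
      = ModularForm.heckeDiagMatrix N := by
    rw [ConjAct.toConjAct_inv, inv_inv, ConjAct.ofConjAct_toConjAct]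
  rw [hD]
  -- `γ = !![a, b; c, d]` with `N ∣ c`; the conjugate is `!![a, N b; c / N, d]`
  have hc : (N : ℤ) ∣ γ 1 0 := by
    have := (Gamma0_mem (N := N) (A := γ)).mp hγ
    exact (ZMod.intCast_zmod_eq_zero_iff_dvd _ _).mp this
  obtain ⟨c', hc'⟩ := hc
  have hdet := γ.det_coe
  rw [Matrix.det_fin_two] at hdet
  let γ' : SL(2, ℤ) := ⟨!![γ 0 0, N * γ 0 1; c', γ 1 1], by
    rw [Matrix.det_fin_two_of]
    rw [hc'] at hdet
    linarith⟩
  refine ⟨γ', ?_⟩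
  have hN : (N : ℝ) ≠ 0 := Nat.cast_ne_zero.mpr (NeZero.ne N)
  rw [eq_mul_inv_iff_mul_eq]
  apply Matrix.GeneralLinearGroup.ext
  intro i j
  rw [Matrix.GeneralLinearGroup.coe_mul, Matrix.GeneralLinearGroup.coe_mul,
    ModularForm.val_heckeDiagMatrix (NeZero.ne N)]
  have h10 : ((γ 1 0 : ℤ) : ℝ) = (N : ℝ) * (c' : ℝ) := by rw [hc']; push_cast; ring
  fin_cases i <;> fin_cases j <;>
    simp [Matrix.mul_apply, Fin.sum_univ_two, γ', h10, mul_comm]

/-- The form `θ = E₄ ∣[4] diag(N, 1)` on `Γ₀(N)`. -/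
noncomputable def thetaForm (N : ℕ) [NeZero N] : ModularForm (Gamma0 N) 4 :=
  let T := ModularForm.translate ModularForm.E₄ (ModularForm.heckeDiagMatrix N)
  { toFun := T
    slash_action_eq' := fun γ hγ => T.slash_action_eq' γ (gamma0_le N hγ)
    holo' := T.holo'
    bdd_at_cusps' := fun hc => T.bdd_at_cusps' (hc.mono (gamma0_le N)) }

theorem coe_thetaForm (N : ℕ) [NeZero N] :
    (⇑(thetaForm N) : ℍ → ℂ) = (⇑ModularForm.E₄) ∣[(4 : ℤ)] ModularForm.heckeDiagMatrix N :=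
  rfl

theorem thetaForm_apply (N : ℕ) [NeZero N] (τ : ℍ) :
    thetaForm N τ = (N : ℂ) ^ 3 * ModularForm.E₄ (ModularForm.heckeDiagMatrix N • τ) := by
  have h := ModularForm.slash_heckeDiagMatrix_apply 4 (NeZero.ne N) (⇑ModularForm.E₄) τ
  have h3 : (N : ℂ) ^ ((4 : ℤ) - 1) = (N : ℂ) ^ 3 := by
    rw [show ((4 : ℤ) - 1) = ((3 : ℕ) : ℤ) by norm_num, zpow_natCast]
  rw [h3] at h
  exact h

/-! ### The q-expansion of `θ` -/

/-- The q-expansion coefficients of `E₄` are rational. -/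
theorem E4_coeff_rat (m : ℕ) :
    ∃ r : ℚ, (PowerSeries.coeff m) (qExpansion 1 ⇑ModularForm.E₄) = (r : ℂ) := by
  have h := EisensteinSeries.E_qExpansion_coeff (k := 4) (by norm_num) (by decide) m
  rw [h]
  split_ifs
  · exact ⟨1, by simp⟩
  · exact ⟨-(2 * 4 / bernoulli 4) * (ArithmeticFunction.sigma (4 - 1) m : ℚ), by push_cast; ring⟩

theorem qParam_heckeDiag (N : ℕ) [NeZero N] (τ : ℍ) :
    Function.Periodic.qParam 1 ((ModularForm.heckeDiagMatrix N • τ : ℍ) : ℂ)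
      = Function.Periodic.qParam 1 (τ : ℂ) ^ N := by
  rw [ModularForm.coe_heckeDiagMatrix_smul (NeZero.ne N)]
  simp only [Function.Periodic.qParam, Complex.ofReal_one, div_one]
  rw [← Complex.exp_nat_mul]
  congr 1
  ring

theorem hasSum_thetaForm (N : ℕ) [NeZero N] (τ : ℍ) :
    HasSum (fun n : ℕ => (if N ∣ n then (N : ℂ) ^ 3 *
        (PowerSeries.coeff (n / N)) (qExpansion 1 ⇑ModularForm.E₄) else 0) •
        Function.Periodic.qParam 1 (τ : ℂ) ^ n) (thetaForm N τ) := by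
  have hN : N ≠ 0 := NeZero.ne N
  have h := ModularForm.hasSum_qExpansion (ModularForm.E₄) one_pos
    one_mem_strictPeriods_SL (ModularForm.heckeDiagMatrix N • τ)
  rw [qParam_heckeDiag] at h
  have h2 := h.mul_left ((N : ℂ) ^ 3)
  rw [← thetaForm_apply] at h2
  have hinj : Function.Injective (fun m : ℕ => N * m) := fun a b hab =>
    Nat.eq_of_mul_eq_mul_left (Nat.pos_of_ne_zero hN) hab
  rw [← hinj.hasSum_iff]
  · have heq : ((fun n : ℕ => (if N ∣ n then (N : ℂ) ^ 3 *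
        (PowerSeries.coeff (n / N)) (qExpansion 1 ⇑ModularForm.E₄) else 0) •
        Function.Periodic.qParam 1 (τ : ℂ) ^ n) ∘ fun m : ℕ => N * m)
        = fun i => (N : ℂ) ^ 3 * ((PowerSeries.coeff i) (qExpansion 1 ⇑ModularForm.E₄) *
            (Function.Periodic.qParam 1 (τ : ℂ) ^ N) ^ i) := by
      funext m
      simp only [Function.comp_apply, dvd_mul_right, if_true, Nat.mul_div_cancel_left _
        (Nat.pos_of_ne_zero hN), smul_eq_mul, pow_mul]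
      ring
    rw [heq]
    exact h2
  · intro n hn
    have : ¬ N ∣ n := fun ⟨m, hm⟩ => hn ⟨m, hm.symm⟩
    simp [this]

theorem one_mem_strictPeriods (N : ℕ) :
    (1 : ℝ) ∈ ((Gamma0 N : Subgroup SL(2, ℤ)) : Subgroup (GL (Fin 2) ℝ)).strictPeriods :=
  CongruenceSubgroup.one_mem_strictPeriods_Gamma0 N

theorem qExpansion_thetaForm_coeff (N : ℕ) [NeZero N] (n : ℕ) :
    (PowerSeries.coeff n) (qExpansion 1 ⇑(thetaForm N)) =
      if N ∣ n then (N : ℂ) ^ 3 * (PowerSeries.coeff (n / N)) (qExpansion 1 ⇑ModularForm.E₄)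
      else 0 :=
  (ModularFormClass.qExpansion_coeff_unique (f := thetaForm N) one_pos (one_mem_strictPeriods N)
    (hasSum_thetaForm N) n).symm

theorem qExpansion_thetaForm_map (N : ℕ) [NeZero N] (σ : ℂ →+* ℂ) :
    (qExpansion 1 ⇑(thetaForm N)).map σ = qExpansion 1 ⇑(thetaForm N) := by
  ext n
  rw [PowerSeries.coeff_map, qExpansion_thetaForm_coeff]
  split_ifs
  · obtain ⟨r, hr⟩ := E4_coeff_rat (n / N)
    rw [hr, map_mul, map_pow, map_natCast, map_ratCast]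
  · exact map_zero σ

/-! ### The stabiliser of `θ` -/

theorem tendsto_E4 : Filter.Tendsto (⇑ModularForm.E₄) atImInfty (nhds 1) := by
  have hper : Function.Periodic ((⇑ModularForm.E₄) ∘ ↑ofComplex) ((1 : ℝ) : ℂ) :=
    SlashInvariantFormClass.periodic_comp_ofComplex ModularForm.E₄ one_mem_strictPeriods_SL
  have han : AnalyticAt ℂ (cuspFunction 1 (⇑ModularForm.E₄)) 0 :=
    ModularFormClass.analyticAt_cuspFunction_zero ModularForm.E₄ one_pos one_mem_strictPeriods_SL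
  have hval : valueAtInfty (⇑ModularForm.E₄) = 1 := by
    rw [← UpperHalfPlane.qExpansion_coeff_zero one_pos han hper]
    exact EisensteinSeries.E_qExpansion_coeff_zero (k := 4) (by norm_num) (by decide)
  obtain ⟨c, hc, hO⟩ := ModularFormClass.exp_decay_sub_atImInfty' ModularForm.E₄
  rw [hval] at hO
  have hexp : Filter.Tendsto (fun τ : ℍ => Real.exp (-c * τ.im)) atImInfty (nhds 0) := by
    have h1 : Filter.Tendsto (fun τ : ℍ => τ.im) atImInfty Filter.atTop := Filter.tendsto_comap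
    have h2 : Filter.Tendsto (fun τ : ℍ => -c * τ.im) atImInfty Filter.atBot := by
      have h3 := Filter.tendsto_neg_atTop_atBot.comp (h1.const_mul_atTop hc)
      refine h3.congr fun τ => ?_
      simp [Function.comp_apply]
    exact Real.tendsto_exp_atBot.comp h2
  have h0 := hO.trans_tendsto hexp
  have := h0.add_const (1 : ℂ)
  simpa using this

theorem tendsto_UT_smul (a b d : ℤ) (ha : 0 < a) (hd : 0 < d) (h : (a : ℝ) * (d : ℝ) ≠ 0) :
    Filter.Tendsto (fun τ : ℍ => UT a b d h • τ) atImInfty atImInfty := by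
  rw [atImInfty, Filter.tendsto_comap_iff]
  have h1 : Filter.Tendsto (fun τ : ℍ => τ.im) (Filter.comap UpperHalfPlane.im Filter.atTop)
      Filter.atTop := Filter.tendsto_comap
  have hpos : (0 : ℝ) < (a : ℝ) / (d : ℝ) := div_pos (by exact_mod_cast ha) (by exact_mod_cast hd)
  have h2 := h1.const_mul_atTop hpos
  refine h2.congr fun τ => ?_
  rw [Function.comp_apply, UT_im_smul a b d ha hd h]

theorem tendsto_E4_slash_UT (a b d : ℤ) (ha : 0 < a) (hd : 0 < d) (h : (a : ℝ) * (d : ℝ) ≠ 0) :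
    Filter.Tendsto ((⇑ModularForm.E₄) ∣[(4 : ℤ)] UT a b d h) atImInfty
      (nhds (((a : ℂ) * (d : ℂ)) ^ ((4 : ℤ) - 1) * (d : ℂ) ^ (-(4 : ℤ)))) := by
  have h1 := (tendsto_E4.comp (tendsto_UT_smul a b d ha hd h)).const_mul
    (((a : ℂ) * (d : ℂ)) ^ ((4 : ℤ) - 1) * (d : ℂ) ^ (-(4 : ℤ)))
  rw [mul_one] at h1
  refine h1.congr fun τ => ?_
  rw [UT_slash_apply 4 a b d ha hd h, Function.comp_apply]

theorem mem_Gamma0_of_slash_eq (N : ℕ) [NeZero N] (γ : SL(2, ℤ))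
    (hγ : (⇑(thetaForm N)) ∣[(4 : ℤ)] γ = ⇑(thetaForm N)) : γ ∈ Gamma0 N := by
  have hNpos : (0 : ℤ) < (N : ℤ) := by exact_mod_cast Nat.pos_of_ne_zero (NeZero.ne N)
  have hN1 : ((N : ℤ) : ℝ) * ((1 : ℤ) : ℝ) ≠ 0 := by
    have : ((N : ℤ) : ℝ) ≠ 0 := by exact_mod_cast hNpos.ne'
    simpa using this
  obtain ⟨g', a', b', d', ha', hd', hprod, hmat, hGL⟩ :=
    Fermat.Agent.S22.hermite (N : ℤ) 0 1 hNpos one_pos γ
  have h' : (a' : ℝ) * (d' : ℝ) ≠ 0 :=
    mul_ne_zero (by exact_mod_cast ha'.ne') (by exact_mod_cast hd'.ne')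
  -- `θ ∣ γ = E₄ ∣ UT a' b' d'`
  have hθ : (⇑(thetaForm N) : ℍ → ℂ) = (⇑ModularForm.E₄) ∣[(4 : ℤ)] UT (N : ℤ) 0 1 hN1 := by
    rw [coe_thetaForm, heckeDiagMatrix_eq_UT N hN1]
  have key : (⇑(thetaForm N)) ∣[(4 : ℤ)] γ = (⇑ModularForm.E₄) ∣[(4 : ℤ)] UT a' b' d' h' := by
    have hGL' : UT (N : ℤ) 0 1 hN1 * (Matrix.SpecialLinearGroup.mapGL ℝ) γ
        = (Matrix.SpecialLinearGroup.mapGL ℝ) g' * UT a' b' d' h' := hGL hN1 h'
    have e1 : ((⇑ModularForm.E₄) ∣[(4 : ℤ)] UT (N : ℤ) 0 1 hN1) ∣[(4 : ℤ)] γ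
        = (⇑ModularForm.E₄) ∣[(4 : ℤ)]
            (UT (N : ℤ) 0 1 hN1 * (Matrix.SpecialLinearGroup.mapGL ℝ) γ) := by
      rw [SlashAction.slash_mul]
      rfl
    have e2 : (⇑ModularForm.E₄) ∣[(4 : ℤ)] ((Matrix.SpecialLinearGroup.mapGL ℝ) g')
        = ⇑ModularForm.E₄ :=
      SlashInvariantForm.slash_action_eq' ModularForm.E₄.toSlashInvariantForm _ ⟨g', rfl⟩
    rw [hθ, e1, hGL', SlashAction.slash_mul, e2]
  -- compare the limits at `i∞`
  have hlim1 := tendsto_E4_slash_UT a' b' d' ha' hd' h'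
  have hlim2 := tendsto_E4_slash_UT (N : ℤ) 0 1 hNpos one_pos hN1
  rw [← key, hγ] at hlim1
  rw [← hθ] at hlim2
  have heq := tendsto_nhds_unique hlim1 hlim2
  have hprodC : (a' : ℂ) * (d' : ℂ) = ((N : ℤ) : ℂ) * ((1 : ℤ) : ℂ) := by exact_mod_cast hprod
  rw [hprodC] at heq
  have hNC : (((N : ℤ) : ℂ) * ((1 : ℤ) : ℂ)) ^ ((4 : ℤ) - 1) ≠ 0 := by
    apply zpow_ne_zero
    have : ((N : ℤ) : ℂ) ≠ 0 := by exact_mod_cast hNpos.ne'
    simpa using this
  have hd4 : (d' : ℂ) ^ (-(4 : ℤ)) = ((1 : ℤ) : ℂ) ^ (-(4 : ℤ)) := mul_left_cancel₀ hNC heq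
  have hd1 : d' = 1 := by
    have h4 : (d' : ℂ) ^ (4 : ℕ) = 1 := by
      have hdc : (d' : ℂ) ≠ 0 := by exact_mod_cast hd'.ne'
      have := hd4
      rw [zpow_neg, zpow_neg, inv_inj] at this
      simpa using this
    have h4' : d' ^ 4 = 1 := by exact_mod_cast h4
    by_contra hne
    have h2 : 2 ≤ d' := by omega
    have : (2 : ℤ) ^ 4 ≤ d' ^ 4 := pow_le_pow_left₀ (by norm_num) h2 4
    omega
  subst hd1
  have ha1 : a' = N := by simpa using hprod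
  -- read off the lower left entry
  have h10 := congrArg (fun M : Matrix (Fin 2) (Fin 2) ℤ => M 1 0) hmat
  simp only [Matrix.mul_apply, Fin.sum_univ_two] at h10
  simp at h10
  rw [Gamma0_mem, h10, ha1]
  simp

end Theta

/-- (B) -/
theorem exists_theta (N : ℕ) [NeZero N] :
    ∃ θ : ModularForm (Gamma0 N) 4,
      (∀ σ : ℂ →+* ℂ, (qExpansion 1 θ).map σ = qExpansion 1 θ) ∧
      (∀ γ : SL(2, ℤ), (⇑θ) ∣[(4 : ℤ)] γ = ⇑θ → γ ∈ Gamma0 N) :=
  ⟨Theta.thetaForm N, Theta.qExpansion_thetaForm_map N, Theta.mem_Gamma0_of_slash_eq N⟩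

end Fermat.Agent.S23L
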