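/-
S23 library, module (C): the space of q-expansions of S₂(Γ₀(N)) is stable under every
coefficientwise ring endomorphism σ of ℂ.
-/
import Mathlib
import Fermat.Statements.S23
import Fermat.Agent.S23.LevelOneTwist
import Fermat.Agent.S23.Div
import Fermat.Agent.S23.RootZero
import Fermat.Agent.S23.Theta
import Fermat.Agent.S23.Data
import Fermat.Agent.S23.QCalc
import Fermat.Agent.S23.SlashCalc

set_option autoImplicit false

open UpperHalfPlane ModularFormClass CongruenceSubgroup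
open scoped MatrixGroups ModularForm Manifold

namespace Fermat.Agent.S23L

namespace Twist

/-- Scaling a monic relation: if `u` is replaced by `u * Ψ`, the relation is multiplied by
`Ψ ^ (m + 1)`. -/
theorem monic_scale (m : ℕ) (u Ψ : ℍ → ℂ) (s : ℕ → ℍ → ℂ) :
    (u * Ψ) ^ (m + 1) + ∑ i ∈ Finset.range (m + 1), s i * (u * Ψ) ^ (m - i) * Ψ ^ (i + 1)
      = Ψ ^ (m + 1) * (u ^ (m + 1) + ∑ i ∈ Finset.range (m + 1), s i * u ^ (m - i)) := by
  rw [mul_add, Finset.mul_sum, mul_pow]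
  congr 1
  · ring
  · refine Finset.sum_congr rfl fun i hi => ?_
    have hi' : i ≤ m := by have := Finset.mem_range.mp hi; omega
    have h1 : Ψ ^ (m + 1) = Ψ ^ (m - i) * Ψ ^ (i + 1) := by
      rw [← pow_add]; congr 1; omega
    rw [h1, mul_pow]; ring

/-- Slashing a monic relation between a weight-2 function and level-one-invariant coefficients. -/
theorem slash_monic (m : ℕ) (g : ℍ → ℂ) (s : ℕ → ℍ → ℂ) (γ : SL(2, ℤ))
    (hs : ∀ i ≤ m, (s i) ∣[(2 : ℤ) * ((i + 1 : ℕ) : ℤ)] γ = s i)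
    (h : g ^ (m + 1) + ∑ i ∈ Finset.range (m + 1), s i * g ^ (m - i) = 0) :
    (g ∣[(2 : ℤ)] γ) ^ (m + 1)
      + ∑ i ∈ Finset.range (m + 1), s i * (g ∣[(2 : ℤ)] γ) ^ (m - i) = 0 := by
  have h1 : (g ^ (m + 1) + ∑ i ∈ Finset.range (m + 1), s i * g ^ (m - i))
      ∣[(2 : ℤ) * ((m + 1 : ℕ) : ℤ)] γ = 0 := by
    rw [h]; exact SlashAction.zero_slash _ _
  rw [SlashAction.add_slash, pow_slash_SL2] at h1
  rw [← h1]
  congr 1
  have h2 : (∑ i ∈ Finset.range (m + 1), s i * g ^ (m - i)) ∣[(2 : ℤ) * ((m + 1 : ℕ) : ℤ)] γ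
      = ∑ i ∈ Finset.range (m + 1), (s i * g ^ (m - i)) ∣[(2 : ℤ) * ((m + 1 : ℕ) : ℤ)] γ := by
    induction Finset.range (m + 1) using Finset.induction_on with
    | empty => simp [SlashAction.zero_slash]
    | insert a t ha ih => rw [Finset.sum_insert ha, Finset.sum_insert ha, SlashAction.add_slash, ih]
  rw [h2]
  refine Finset.sum_congr rfl fun i hi => ?_
  have hi' : i ≤ m := by have := Finset.mem_range.mp hi; omega
  have hw : (2 : ℤ) * ((m + 1 : ℕ) : ℤ) = (2 : ℤ) * ((i + 1 : ℕ) : ℤ) + 2 * ((m - i : ℕ) : ℤ) := by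
    omega
  rw [hw, ModularForm.mul_slash_SL2, hs i hi', pow_slash_SL2]

end Twist

open Twist in
/-- (C) -/
theorem exists_cuspForm_twist (N : ℕ) [NeZero N] (σ : ℂ →+* ℂ) (f : CuspForm (Gamma0 N) 2) :
    ∃ g : CuspForm (Gamma0 N) 2, ∀ n, qCoeff g n = σ (qCoeff f n) := by
  obtain ⟨θ, hθσ, hθstab⟩ := exists_theta N
  obtain ⟨m, c, hc, hc1, hΦ, hΨ, hrig, hdata⟩ := exists_data N θ hθstab
  obtain ⟨⟨t, ht, hft⟩, ⟨s, hs, hfs⟩⟩ := hdata f
  have hθQ : QExp (⇑θ) := QExp.of_Gamma0 θ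
  have hθC : ConjPair σ (⇑θ) (⇑θ) := ConjPair.of_map_eq σ hθQ (hθσ σ)
  have hfQ : QExp (⇑f) := QExp.of_cusp_Gamma0 f
  -- Step 1: the coefficients `c i` of the modular equation have `σ`-fixed `q`-expansion.
  have hcC : ∀ i ≤ m + 1, ConjPair σ (c i) (c i) := by
    have hex : ∀ i, ∃ c'i : ℍ → ℂ, i ≤ m + 1 →
        (∃ h : ModularForm 𝒮ℒ (4 * ((m + 1 - i : ℕ) : ℤ)), ⇑h = c'i) ∧ ConjPair σ (c i) c'i := by
      intro i
      by_cases hi : i ≤ m + 1
      · obtain ⟨h, hh⟩ := hc i hi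
        obtain ⟨g, hg⟩ := levelOne_twist σ _ h
        exact ⟨⇑g, fun _ => ⟨⟨g, rfl⟩, hh ▸ ConjPair.of_levelOne h g hg⟩⟩
      · exact ⟨0, fun h => absurd h hi⟩
    choose c₀ hc₀ using hex
    have hc'C : ∀ i ≤ m + 1, ConjPair σ (c i) (if i = m + 1 then 1 else c₀ i) := by
      intro i hi
      by_cases him : i = m + 1
      · rw [if_pos him, him, hc1]; exact ConjPair.one σ
      · rw [if_neg him]; exact (hc₀ i hi).2
    have hc'L : ∀ i ≤ m + 1, ∃ h : ModularForm 𝒮ℒ (4 * ((m + 1 - i : ℕ) : ℤ)),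
        ⇑h = (if i = m + 1 then (1 : ℍ → ℂ) else c₀ i) := by
      intro i hi
      by_cases him : i = m + 1
      · obtain ⟨h, hh⟩ := hc i hi
        refine ⟨h, ?_⟩
        rw [if_pos him, hh, him, hc1]
      · rw [if_neg him]; exact (hc₀ i hi).1
    have hsum : ∑ i ∈ Finset.range (m + 2),
        (if i = m + 1 then (1 : ℍ → ℂ) else c₀ i) * (⇑θ) ^ i = 0 := by
      have hP : ConjPair σ (∑ i ∈ Finset.range (m + 2), c i * (⇑θ) ^ i)
          (∑ i ∈ Finset.range (m + 2), (if i = m + 1 then (1 : ℍ → ℂ) else c₀ i) * (⇑θ) ^ i) :=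
        ConjPair.sum _ fun i hi =>
          (hc'C i (by have := Finset.mem_range.mp hi; omega)).mul (hθC.pow i)
      exact hP.eq_zero hΦ
    have heq := hrig (fun i => if i = m + 1 then (1 : ℍ → ℂ) else c₀ i) hc'L (by simp) hsum
    intro i hi
    have h1 := hc'C i hi
    have h2 := heq i hi
    rwa [h2] at h1
  -- Step 2: `Ψ = Φ'(θ)` has `σ`-fixed `q`-expansion.
  set Ψ : ℍ → ℂ := ∑ i ∈ Finset.range (m + 1), ((i + 1 : ℕ) : ℂ) • (c (i + 1) * (⇑θ) ^ i)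
    with hΨdef
  have hΨC : ConjPair σ Ψ Ψ :=
    ConjPair.sum _ fun i hi =>
      ((hcC (i + 1) (by have := Finset.mem_range.mp hi; omega)).mul (hθC.pow i)).natCast_smul (i + 1)
  -- Step 3: twists of the traces `t l` and of the coefficients `s i`.
  have hext : ∀ l : ℕ, ∃ g : ModularForm 𝒮ℒ (2 + 4 * (l : ℤ)), ConjPair σ (t l) (⇑g) := by
    intro l
    obtain ⟨h, hh⟩ := ht l
    obtain ⟨g, hg⟩ := levelOne_twist σ _ h
    exact ⟨g, hh ▸ ConjPair.of_levelOne h g hg⟩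
  choose tσ htσ using hext
  have hexs : ∀ i, ∃ sσi : ℍ → ℂ, MDiff sσi ∧ IsZeroAtImInfty sσi ∧
      (i ≤ m → ConjPair σ (s i) sσi ∧
        ∀ γ : SL(2, ℤ), sσi ∣[(2 : ℤ) * ((i + 1 : ℕ) : ℤ)] γ = sσi) := by
    intro i
    by_cases hi : i ≤ m
    · obtain ⟨h, hh⟩ := hs i hi
      obtain ⟨g, hg⟩ := levelOne_twist σ _ (CuspForm.toModularFormₗ h)
      have hP : ConjPair σ (s i) (⇑g) := by
        have := ConjPair.of_levelOne (CuspForm.toModularFormₗ h) g hg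
        rwa [show (⇑(CuspForm.toModularFormₗ h) : ℍ → ℂ) = s i from hh] at this
      refine ⟨⇑g, ModularFormClass.holo g, ?_, fun _ => ⟨hP, fun γ => slash_levelOne g γ⟩⟩
      apply hP.right.isZeroAtImInfty
      rw [hP.qexp, PowerSeries.coeff_map, ← hh, qExpansion_coeff_zero_of_cusp_levelOne h, map_zero]
    · exact ⟨0, mdifferentiable_const, Filter.zero_zeroAtFilter _, fun h => absurd h hi⟩
  choose sσ hsσ_hol hsσ_zero hsσ using hexs
  -- Step 4: the twisted numerator `H`.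
  set H : ℍ → ℂ := ∑ n ∈ Finset.range (m + 1),
      (∑ i ∈ Finset.Icc (n + 1) (m + 1), c i * ⇑(tσ (i - n - 1))) * (⇑θ) ^ n with hHdef
  have hHC : ConjPair σ (⇑f * Ψ) H := by
    rw [hft]
    exact ConjPair.sum _ fun n _ =>
      (ConjPair.sum _ fun i hi => (hcC i (Finset.mem_Icc.mp hi).2).mul (htσ _)).mul (hθC.pow n)
  -- Step 5: the twisted integrality relation.
  have hR : H ^ (m + 1) + ∑ i ∈ Finset.range (m + 1), sσ i * H ^ (m - i) * Ψ ^ (i + 1) = 0 := by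
    have h0 : (⇑f * Ψ) ^ (m + 1)
        + ∑ i ∈ Finset.range (m + 1), s i * (⇑f * Ψ) ^ (m - i) * Ψ ^ (i + 1) = 0 := by
      rw [monic_scale, hfs, mul_zero]
    have hP : ConjPair σ ((⇑f * Ψ) ^ (m + 1)
        + ∑ i ∈ Finset.range (m + 1), s i * (⇑f * Ψ) ^ (m - i) * Ψ ^ (i + 1))
        (H ^ (m + 1) + ∑ i ∈ Finset.range (m + 1), sσ i * H ^ (m - i) * Ψ ^ (i + 1)) :=
      (hHC.pow (m + 1)).add (ConjPair.sum _ fun i hi =>
        (((hsσ i (by have := Finset.mem_range.mp hi; omega)).1).mul (hHC.pow (m - i))).mul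
          (hΨC.pow (i + 1)))
    exact hP.eq_zero h0
  -- Step 6: division.
  obtain ⟨g, hg_hol, hgΨ⟩ :=
    exists_mdiff_quotient H Ψ sσ hHC.right.hol hΨC.left.hol hsσ_hol hΨ hR
  have hΨ_hol : MDiff Ψ := hΨC.left.hol
  -- Step 7: the monic relation for `g`.
  have hg_rel : g ^ (m + 1) + ∑ i ∈ Finset.range (m + 1), sσ i * g ^ (m - i) = 0 := by
    have h1 : Ψ ^ (m + 1) * (g ^ (m + 1) + ∑ i ∈ Finset.range (m + 1), sσ i * g ^ (m - i)) = 0 := by
      rw [← monic_scale, hgΨ, hR]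
    have hol2 : MDiff (g ^ (m + 1) + ∑ i ∈ Finset.range (m + 1), sσ i * g ^ (m - i)) :=
      (hg_hol.pow (m + 1)).add (.sum fun i _ => (hsσ_hol i).mul (hg_hol.pow (m - i)))
    rcases (UpperHalfPlane.mul_eq_zero_iff (hΨ_hol.pow (m + 1)) hol2).mp h1 with h | h
    · exfalso
      apply hΨ
      funext z
      have := congrFun h z
      simpa using this
    · exact h
  -- Step 8: `Γ₀(N)`-invariance.
  have hθS : SlashInv N 4 (⇑θ) := SlashInv.of_Gamma0 θ
  have hΨS : SlashInv N (4 * (m : ℤ)) Ψ := by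
    refine SlashInv.sum _ fun i hi => SlashInv.smul _ ?_
    have hi' : i ≤ m := by have := Finset.mem_range.mp hi; omega
    obtain ⟨h, hh⟩ := hc (i + 1) (by omega)
    have h1 := (SlashInv.of_levelOne N h).mul (hθS.pow i)
    rw [hh] at h1
    exact h1.congr (by omega)
  have hHS : SlashInv N (4 * (m : ℤ) + 2) H := by
    refine SlashInv.sum _ fun n hn => ?_
    have hn' : n ≤ m := by have := Finset.mem_range.mp hn; omega
    have h1 : SlashInv N (4 * ((m : ℤ) - n) + 2)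
        (∑ i ∈ Finset.Icc (n + 1) (m + 1), c i * ⇑(tσ (i - n - 1))) := by
      refine SlashInv.sum _ fun i hi => ?_
      obtain ⟨hi1, hi2⟩ := Finset.mem_Icc.mp hi
      obtain ⟨h, hh⟩ := hc i hi2
      have h2 := (SlashInv.of_levelOne N h).mul (SlashInv.of_levelOne N (tσ (i - n - 1)))
      rw [hh] at h2
      exact h2.congr (by omega)
    exact (h1.mul (hθS.pow n)).congr (by ring)
  have hgS : SlashInv N 2 g := by
    intro γ hγ
    have h1 : (g ∣[(2 : ℤ)] γ) * Ψ = g * Ψ := by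
      have h2 : (g * Ψ) ∣[(2 : ℤ) + 4 * (m : ℤ)] γ = (g ∣[(2 : ℤ)] γ) * (Ψ ∣[4 * (m : ℤ)] γ) :=
        ModularForm.mul_slash_SL2 2 (4 * m) γ g Ψ
      rw [hΨS γ hγ] at h2
      rw [← h2, hgΨ]
      exact (hHS.congr (by ring)) γ hγ
    have h3 : (g ∣[(2 : ℤ)] γ - g) * Ψ = 0 := by rw [sub_mul, h1, sub_self]
    have hol3 : MDiff (g ∣[(2 : ℤ)] γ - g) := by
      refine MDifferentiable.sub ?_ hg_hol
      rw [ModularForm.SL_slash]
      exact hg_hol.slash 2 _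
    rcases (UpperHalfPlane.mul_eq_zero_iff hol3 hΨ_hol).mp h3 with h | h
    · exact sub_eq_zero.mp h
    · exact absurd h hΨ
  -- Step 9: cuspidality at all cusps.
  have hcusp : ∀ γ : SL(2, ℤ), IsZeroAtImInfty (g ∣[(2 : ℤ)] γ) := fun γ =>
    isZeroAtImInfty_of_monic (m := m) (g ∣[(2 : ℤ)] γ) sσ hsσ_zero
      (slash_monic m g sσ γ (fun i hi => (hsσ i hi).2 γ) hg_rel)
  -- Step 10: the cusp form.
  obtain ⟨G, hG⟩ := exists_cuspForm_of_slashInv N 2 g hg_hol hgS hcusp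
  refine ⟨G, fun n => ?_⟩
  have hGQ : QExp g := hG ▸ QExp.of_cusp_Gamma0 G
  have h1 : qExpansion 1 g * qExpansion 1 Ψ = (qExpansion 1 (⇑f)).map σ * qExpansion 1 Ψ := by
    rw [← hGQ.qExpansion_mul hΨC.left, hgΨ, hHC.qexp, hfQ.qExpansion_mul hΨC.left, map_mul,
      ← hΨC.qexp]
  have h2 : qExpansion 1 g = (qExpansion 1 (⇑f)).map σ :=
    mul_right_cancel₀ (hΨC.left.qExpansion_ne_zero hΨ) h1
  show (qExpansion 1 (⇑G)).coeff n = σ ((qExpansion 1 (⇑f)).coeff n)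
  rw [hG, h2, PowerSeries.coeff_map]

end Fermat.Agent.S23L
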