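/-
S23 library, module (H): S₂(Γ₀(N)) is spanned by forms with rational q-expansion.
-/
import Mathlib
import Fermat.Statements.S23
import Fermat.Agent.S49Aux
import Fermat.Agent.S23.FixedField
import Fermat.Agent.S23.Twist

set_option autoImplicit false

open UpperHalfPlane ModularFormClass CongruenceSubgroup
open scoped MatrixGroups ModularForm Manifold

namespace Fermat.Agent.S23L

namespace Descent

/-- Abstract Galois descent: a finite-dimensional complex vector space with a separating
family of "coefficient" functionals that is stable under twisting the coefficients by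
arbitrary ring endomorphisms of `ℂ` is spanned by the vectors with rational coefficients. -/
theorem span_rational_eq_top_of_twist {V : Type*} [AddCommGroup V] [Module ℂ V]
    [FiniteDimensional ℂ V] (a : ℕ → V →ₗ[ℂ] ℂ)
    (ha : ∀ f : V, (∀ n, a n f = 0) → f = 0)
    (htw : ∀ (σ : ℂ →+* ℂ) (f : V), ∃ g : V, ∀ n, a n g = σ (a n f))
    (hfix : ∀ x : ℂ, (∀ σ : ℂ →+* ℂ, σ x = x) → ∃ r : ℚ, x = r) :
    Submodule.span ℂ {f : V | ∀ n, ∃ r : ℚ, a n f = r} = ⊤ := by
  classical
  -- the functionals `a n` span the dual
  have hspan : Submodule.span ℂ (Set.range a) = (⊤ : Submodule ℂ (Module.Dual ℂ V)) := by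
    have hco : (Submodule.span ℂ (Set.range a)).dualCoannihilator = ⊥ := by
      rw [eq_bot_iff]
      intro f hf
      rw [Submodule.mem_dualCoannihilator] at hf
      rw [Submodule.mem_bot]
      exact ha f fun n => hf (a n) (Submodule.subset_span ⟨n, rfl⟩)
    have h := Subspace.dualCoannihilator_dualAnnihilator_eq
      (W := Submodule.span ℂ (Set.range a))
    rw [hco, Submodule.dualAnnihilator_bot] at h
    exact h.symm
  -- extract a basis of the dual consisting of some of the `a n`
  obtain ⟨s, hs, hss, hli⟩ := exists_linearIndependent ℂ (Set.range a)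
  have hs_top : ⊤ ≤ Submodule.span ℂ (Set.range (Subtype.val : s → Module.Dual ℂ V)) := by
    rw [Subtype.range_coe, hss, hspan]
  let b : Module.Basis s ℂ (Module.Dual ℂ V) := Module.Basis.mk hli hs_top
  have hb : ∀ i : s, b i = (i : Module.Dual ℂ V) := fun i => by
    simp [b]
  have : Finite s := Module.Finite.finite_basis b
  have : Fintype s := Fintype.ofFinite s
  -- the dual basis, transported to `V`
  let v : Module.Basis s ℂ V := b.dualBasis.map (Module.evalEquiv ℂ V).symm
  have hv : ∀ i j : s, (i : Module.Dual ℂ V) (v j) = if i = j then 1 else 0 := by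
    intro i j
    have h1 : (i : Module.Dual ℂ V) (v j) = b.dualBasis j (b i) := by
      simp only [v, Module.Basis.map_apply]
      rw [hb i]
      exact Module.apply_evalEquiv_symm_apply ℂ V _ _
    rw [h1, Module.Basis.dualBasis_apply_self]
  -- each `v j` has rational coefficients
  have hrat : ∀ j : s, ∀ n, ∃ r : ℚ, a n (v j) = r := by
    intro j n
    apply hfix
    intro σ
    obtain ⟨g, hg⟩ := htw σ (v j)
    have hgv : g = v j := by
      rw [← sub_eq_zero]
      rw [← Module.forall_dual_apply_eq_zero_iff ℂ]
      intro φ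
      have hφ : φ ∈ Submodule.span ℂ (Set.range b) := by
        rw [b.span_eq]; trivial
      induction hφ using Submodule.span_induction with
      | mem x hx =>
        obtain ⟨i, rfl⟩ := hx
        rw [hb i, map_sub, sub_eq_zero]
        obtain ⟨m, hm⟩ := hs i.2
        have h2 := hv i j
        rw [← hm] at h2 ⊢
        rw [hg m, h2]
        split_ifs <;> simp
      | zero => simp
      | add x y _ _ hx hy => rw [LinearMap.add_apply, hx, hy, add_zero]
      | smul c x _ hx => rw [LinearMap.smul_apply, hx, smul_zero]
    rw [← hg n, hgv]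
  rw [eq_top_iff, ← v.span_eq]
  apply Submodule.span_mono
  rintro _ ⟨j, rfl⟩
  exact hrat j

/-- Finite-dimensionality of `S₂(Γ₀(N))` from the Sturm bound. -/
theorem finiteDimensional (N : ℕ) [NeZero N] :
    FiniteDimensional ℂ (CuspForm (Gamma0 N) 2) := by
  let B := P2MW.S_CuspForm_intLattice_fg.W3WsD.sturmB N 2
  let L : CuspForm (Gamma0 N) 2 →ₗ[ℂ] (Fin (B + 1) → ℂ) :=
    { toFun := fun f i => qCoeff f i
      map_add' := fun f g => by
        funext i
        exact Fermat.Agent.S49Aux.qc_add f g i
      map_smul' := fun c f => by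
        funext i
        simp only [RingHom.id_apply, Pi.smul_apply, smul_eq_mul]
        exact Fermat.Agent.S49Aux.qc_smul c f i }
  have hL : Function.Injective L := by
    intro f g hfg
    apply P2MW.S_CuspForm_intLattice_fg.W3WsD.trunc_injective N 2
    exact hfg
  exact FiniteDimensional.of_injective L hL

/-- The `n`-th `q`-expansion coefficient as a linear functional. -/
noncomputable def coeffLin (N : ℕ) (n : ℕ) : CuspForm (Gamma0 N) 2 →ₗ[ℂ] ℂ where
  toFun f := qCoeff f n
  map_add' f g := Fermat.Agent.S49Aux.qc_add f g n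
  map_smul' c f := by
    simp only [RingHom.id_apply, smul_eq_mul]
    exact Fermat.Agent.S49Aux.qc_smul c f n

end Descent

/-- (R) -/
theorem span_rational_eq_top (N : ℕ) [NeZero N] :
    Submodule.span ℂ {f : CuspForm (Gamma0 N) 2 | ∀ n, ∃ r : ℚ, qCoeff f n = r} = ⊤ := by
  have := Descent.finiteDimensional N
  refine Descent.span_rational_eq_top_of_twist (Descent.coeffLin N)
    (fun f hf => Fermat.Agent.S49Aux.eq_zero_of_qc f hf)
    (fun σ f => exists_cuspForm_twist N σ f) ?_
  intro x hx
  by_contra hcon
  push Not at hcon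
  obtain ⟨σ, hσ⟩ := exists_ringHom_ne hcon
  exact hσ (hx σ)

end Fermat.Agent.S23L
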