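/-
S23 library, module (I): a weight-2 cusp form on Γ₀(N) with rational q-expansion has bounded
denominators (uses S22: the full Hecke algebra is a finitely generated ℤ-module).
-/
import Mathlib
import Fermat.Statements.S23
import Fermat.Agent.S22
import Fermat.Agent.S49Aux

set_option autoImplicit false

open UpperHalfPlane ModularFormClass CongruenceSubgroup
open scoped MatrixGroups ModularForm Manifold

namespace Fermat.Agent.S23L.Integral

open Fermat.Agent.S49Aux CuspForm

variable {N : ℕ} [NeZero N]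

/-- rationality of the q-expansion -/
def IsRat (g : CuspForm (Gamma0 N) 2) : Prop := ∀ n, ∃ r : ℚ, qCoeff g n = r

theorem isRat_hecke {t : Module.End ℂ (CuspForm (Gamma0 N) 2)}
    (ht : t ∈ CuspForm.heckeAlgebra N 2 (∅ : Set ℕ)) :
    ∀ g : CuspForm (Gamma0 N) 2, IsRat g → IsRat (t g) := by
  induction ht using Algebra.adjoin_induction with
  | mem x hx =>
    intro g hg n
    rcases hx with ⟨ℓ, hℓ, hℓN, -, rfl⟩ | ⟨q, hqN, hq, -, rfl⟩
    · rw [qc_T hℓ hℓN]
      obtain ⟨r1, h1⟩ := hg (n * ℓ)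
      obtain ⟨r2, h2⟩ := hg (n / ℓ)
      rw [h1, h2]
      by_cases hd : ℓ ∣ n
      · rw [if_pos hd]
        exact ⟨r1 + ℓ * r2, by push_cast; ring⟩
      · rw [if_neg hd]
        exact ⟨r1, by simp⟩
    · rw [qc_U hqN hq.ne_zero]
      exact hg _
  | algebraMap r =>
    intro g hg n
    have : (algebraMap ℤ (Module.End ℂ (CuspForm (Gamma0 N) 2)) r) g = (r : ℂ) • g := by
      rw [Algebra.algebraMap_eq_smul_one, LinearMap.smul_apply, Module.End.one_apply,
        Int.cast_smul_eq_zsmul]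
    rw [this, qc_smul]
    obtain ⟨r1, h1⟩ := hg n
    exact ⟨r * r1, by rw [h1]; push_cast; ring⟩
  | add x y _ _ hx hy =>
    intro g hg n
    rw [LinearMap.add_apply, qc_add]
    obtain ⟨r1, h1⟩ := hx g hg n
    obtain ⟨r2, h2⟩ := hy g hg n
    exact ⟨r1 + r2, by rw [h1, h2]; push_cast; ring⟩
  | mul x y _ _ hx hy =>
    intro g hg
    rw [Module.End.mul_apply]
    exact hx _ (hy g hg)

/-- `D`-integrality of the first coefficient propagates to all coefficients on a Hecke-stable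
family. -/
theorem coeff_int (f : CuspForm (Gamma0 N) 2) (D : ℕ)
    (h1 : ∀ t : CuspForm.heckeAlgebra N 2 (∅ : Set ℕ),
      ∃ m : ℤ, (D : ℂ) * qCoeff ((t : Module.End ℂ (CuspForm (Gamma0 N) 2)) f) 1 = m) :
    ∀ (n : ℕ) (t : CuspForm.heckeAlgebra N 2 (∅ : Set ℕ)),
      ∃ m : ℤ, (D : ℂ) * qCoeff ((t : Module.End ℂ (CuspForm (Gamma0 N) 2)) f) n = m := by
  intro n
  induction n using Nat.strong_induction_on with
  | _ n ih =>
    intro t
    rcases Nat.lt_or_ge n 2 with hn | hn
    · interval_cases n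
      · exact ⟨0, by rw [qc_zero_coeff]; simp⟩
      · exact h1 t
    · have hp : (n.minFac).Prime := Nat.minFac_prime (by omega)
      obtain ⟨m, hm⟩ : n.minFac ∣ n := Nat.minFac_dvd n
      have hmpos : 0 < m := by
        rcases Nat.eq_zero_or_pos m with h0 | h0
        · subst h0; omega
        · exact h0
      have hmlt : m < n := by
        conv_rhs => rw [hm]
        exact lt_mul_of_one_lt_left hmpos hp.one_lt
      have hn' : n = m * n.minFac := by rw [mul_comm]; exact hm
      generalize n.minFac = p at hp hn'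
      by_cases hN : p ∣ N
      · obtain ⟨k, hk⟩ := ih m hmlt (CuspForm.heckeAlgebra.U hp hN (Set.notMem_empty p) * t)
        refine ⟨k, ?_⟩
        rw [← hk, MulMemClass.coe_mul, CuspForm.heckeAlgebra.coe_U, Module.End.mul_apply,
          qc_U hN hp.ne_zero, hn']
      · obtain ⟨k, hk⟩ := ih m hmlt (CuspForm.heckeAlgebra.T hp hN (Set.notMem_empty p) * t)
        rw [MulMemClass.coe_mul, CuspForm.heckeAlgebra.coe_T, Module.End.mul_apply,
          qc_T hp hN, ← hn'] at hk
        by_cases hd : p ∣ m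
        · rw [if_pos hd] at hk
          obtain ⟨k2, hk2⟩ := ih (m / p) (lt_of_le_of_lt (Nat.div_le_self _ _) hmlt) t
          refine ⟨k - p * k2, ?_⟩
          push_cast
          rw [← hk, ← hk2]; ring
        · rw [if_neg hd, add_zero] at hk
          exact ⟨k, hk⟩

end Fermat.Agent.S23L.Integral

namespace Fermat.Agent.S23L

/-- (I) -/
theorem exists_nsmul_mem_intLattice (N : ℕ) [NeZero N] (f : CuspForm (Gamma0 N) 2)
    (hf : ∀ n, ∃ r : ℚ, qCoeff f n = r) :
    ∃ D : ℕ, 0 < D ∧ (D : ℂ) • f ∈ CuspForm.intLattice N 2 := by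
  classical
  have hfin : Module.Finite ℤ (CuspForm.heckeAlgebra N 2 (∅ : Set ℕ)) :=
    Fermat.Agent.S22.result N 2 ∅
  obtain ⟨s, hs⟩ := hfin.fg_top
  have hrat : ∀ t : CuspForm.heckeAlgebra N 2 (∅ : Set ℕ),
      ∃ r : ℚ, qCoeff ((t : Module.End ℂ (CuspForm (Gamma0 N) 2)) f) 1 = r :=
    fun t => Integral.isRat_hecke t.2 f hf 1
  choose r hr using hrat
  let D : ℕ := ∏ t ∈ s, (r t).den
  have hDpos : 0 < D := Finset.prod_pos fun t _ => (r t).den_pos
  have hgen : ∀ t ∈ s,
      ∃ m : ℤ, (D : ℂ) * qCoeff ((t : Module.End ℂ (CuspForm (Gamma0 N) 2)) f) 1 = m := by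
    intro t ht
    obtain ⟨c, hc⟩ : (r t).den ∣ D := Finset.dvd_prod_of_mem _ ht
    refine ⟨c * (r t).num, ?_⟩
    rw [hr t, hc]
    have hden : ((r t).den : ℂ) ≠ 0 := Nat.cast_ne_zero.mpr (r t).den_ne_zero
    have hq : ((r t : ℚ) : ℂ) = ((r t).num : ℂ) / ((r t).den : ℂ) := by
      conv_lhs => rw [← Rat.num_div_den (r t)]
      push_cast; rfl
    rw [hq]
    push_cast
    field_simp
  have h1 : ∀ t : CuspForm.heckeAlgebra N 2 (∅ : Set ℕ),
      ∃ m : ℤ, (D : ℂ) * qCoeff ((t : Module.End ℂ (CuspForm (Gamma0 N) 2)) f) 1 = m := by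
    intro t
    have ht : t ∈ Submodule.span ℤ (s : Set (CuspForm.heckeAlgebra N 2 (∅ : Set ℕ))) := by
      rw [hs]; trivial
    induction ht using Submodule.span_induction with
    | mem x hx => exact hgen x hx
    | zero =>
      refine ⟨0, ?_⟩
      rw [ZeroMemClass.coe_zero, LinearMap.zero_apply,
        show (0 : CuspForm (Gamma0 N) 2) = (0 : ℂ) • f by simp, Fermat.Agent.S49Aux.qc_smul]
      simp
    | add x y _ _ hx hy =>
      obtain ⟨a, ha⟩ := hx
      obtain ⟨b, hb⟩ := hy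
      refine ⟨a + b, ?_⟩
      rw [AddMemClass.coe_add, LinearMap.add_apply, Fermat.Agent.S49Aux.qc_add]
      push_cast
      rw [← ha, ← hb]; ring
    | smul c x _ hx =>
      obtain ⟨a, ha⟩ := hx
      refine ⟨c * a, ?_⟩
      rw [SetLike.val_smul, LinearMap.smul_apply, ← Int.cast_smul_eq_zsmul ℂ, Fermat.Agent.S49Aux.qc_smul]
      push_cast
      rw [← ha]; ring
  refine ⟨D, hDpos, Submodule.subset_span ?_⟩
  intro n
  obtain ⟨m, hm⟩ := Integral.coeff_int f D h1 n 1
  refine ⟨m, ?_⟩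
  rw [Fermat.Agent.S49Aux.qc_smul, ← hm, OneMemClass.coe_one, Module.End.one_apply]

end Fermat.Agent.S23L
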